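import Fermat.Agent.WeilPairing.Galois
import Fermat.Agent.ECTorsion.Structure
import Fermat.Prelude.Def_FreyPackage_DetCyclotomic
import Mathlib.LinearAlgebra.Matrix.Determinant.Basic

/-!
# The determinant of the mod `n` representation is the cyclotomic character
-/

set_option autoImplicit false

open WeierstrassCurve WeierstrassCurve.Affine WeierstrassCurve.Affine.Point
open scoped WeierstrassCurve.Affine

namespace Fermat.Agent.WeilPairing

universe r s v

variable {R : Type r} {S : Type s} {K : Type v} [CommRing R] [CommRing S] [Field K]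
  [DecidableEq K] [IsAlgClosed K] [Algebra R S] [Algebra R K] [Algebra S K] [IsScalarTower R S K]

omit [IsAlgClosed K] [DecidableEq K] in
lemma galois_fixesCoeffs (W' : Affine R) (σ : K ≃ₐ[S] K) :
    FixesCoeffs (W'⁄K) σ.toRingEquiv := by
  have h : ∀ r : R, σ (algebraMap R K r) = algebraMap R K r := fun r => by
    rw [IsScalarTower.algebraMap_apply R S K, σ.commutes]
  exact ⟨h _, h _, h _, h _, h _⟩

/-- The action of `σ` on points as an additive automorphism. -/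
noncomputable def galoisPt (W' : Affine R) (σ : K ≃ₐ[S] K) : (W'⁄K).Point ≃+ (W'⁄K).Point :=
  DistribMulAction.toAddEquiv _ σ

omit [IsAlgClosed K] in
lemma galoisPt_isPointMap (W' : Affine R) (σ : K ≃ₐ[S] K) :
    IsPointMap σ.toRingEquiv (galoisPt W' σ) :=
  fun _ _ _ => ⟨_, rfl⟩

/-- Expansion of an alternating bilinear pairing on two generators. -/
lemma pairing_comb {G L : Type*} [AddCommGroup G] [CommRing L] (e : G → G → L)
    (h₁ : ∀ P Q T, e (P + Q) T = e P T * e Q T) (h₂ : ∀ P Q T, e P (Q + T) = e P Q * e P T)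
    (hz₁ : ∀ Q, e 0 Q = 1) (hz₂ : ∀ P, e P 0 = 1) (halt : ∀ T, e T T = 1)
    (x y z w : ℕ) (P Q : G) :
    e (x • P + y • Q) (z • P + w • Q) = e P Q ^ (x * w) * e Q P ^ (y * z) := by
  have hn₁ : ∀ (k : ℕ) P Q, e (k • P) Q = e P Q ^ k := fun k P Q => by
    induction k with
    | zero => rw [zero_nsmul, hz₁, pow_zero]
    | succ k ih => rw [succ_nsmul, h₁, ih, pow_succ]
  have hn₂ : ∀ (k : ℕ) P Q, e P (k • Q) = e P Q ^ k := fun k P Q => by
    induction k with
    | zero => rw [zero_nsmul, hz₂, pow_zero]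
    | succ k ih => rw [succ_nsmul, h₂, ih, pow_succ]
  rw [h₁, h₂, h₂, hn₁, hn₁, hn₁, hn₁, hn₂, hn₂, hn₂, hn₂, halt, halt]
  simp only [one_pow, one_mul, mul_one, ← pow_mul]
  rw [Nat.mul_comm w x, Nat.mul_comm z y]

/-- If `σ` acts on `μₙ` by `μ ↦ μ ^ a` then its determinant on `E[n]` is `a`. -/
theorem det_galoisRep_eq (W' : Affine R) (hΔ : algebraMap R K W'.Δ ≠ 0) {n : ℕ}
    (hn : (n : K) ≠ 0) (σ : K ≃ₐ[S] K) (a : ℕ) (hσ : ∀ μ : K, μ ^ n = 1 → σ μ = μ ^ a) :
    ((LinearEquiv.det (galoisRep (S := S) W' n σ) : (ZMod n)ˣ) : ZMod n) = a := by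
  classical
  have : (W'⁄K).IsElliptic := ECTorsion.isElliptic_baseChange W' hΔ
  have : NeZero (n : K) := ⟨hn⟩
  have : NeZero n := NeZero.of_neZero_natCast K
  obtain ⟨B⟩ := ECTorsion.exists_torsionBasis (K := K) W' hΔ hn
  let b : Tor (W'⁄K) n ≃+ ZMod n × ZMod n :=
    (B.equivFun.trans (LinearEquiv.finTwoArrow (ZMod n) (ZMod n))).toAddEquiv
  have : Fintype (Tor (W'⁄K) n) := Fintype.ofEquiv _ b.toEquiv.symm
  obtain ⟨e, hadd₁, hadd₂, halt, hprim, hchar⟩ := exists_pairing hn b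
  have hgal : ∀ P Q : Tor (W'⁄K) n, e (σ • P) (σ • Q) = σ (e P Q) := fun P Q => by
    obtain ⟨U, hU, hc⟩ := hchar Q
    obtain ⟨U', hU', hc'⟩ := hchar (σ • Q)
    have hn' : n • galoisPt W' σ U = n • U' := by
      rw [← map_nsmul, hU, hU']; rfl
    obtain ⟨χ, hχ⟩ := exists_hasChar (U := galoisPt W' σ U)
      (by rw [Fintype.card_congr b.toEquiv, Fintype.card_prod, ZMod.card, sq])
      (by rw [hn', hU']; exact (σ • Q).2)
    have := HasChar.galois (galois_fixesCoeffs W' σ) (galoisPt_isPointMap W' σ) hc hχ P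
    rw [hχ.unique hc' hn'] at this
    exact this
  set e₀ : Tor (W'⁄K) n := b.symm (1, 0) with he₀
  set e₁ : Tor (W'⁄K) n := b.symm (0, 1) with he₁
  have hB0 : e₀ = B 0 := by
    rw [he₀, AddEquiv.symm_apply_eq]
    simp [b]
  have hB1 : e₁ = B 1 := by
    rw [he₁, AddEquiv.symm_apply_eq]
    simp [b]
  have hne : ∀ P Q, e P Q ≠ 0 := fun P Q => by
    obtain ⟨U, -, hc⟩ := hchar Q
    exact hc.ne_zero P
  have hzero₁ : ∀ Q, e 0 Q = 1 := fun Q => by
    have h := hadd₁ 0 0 Q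
    rw [add_zero] at h
    exact (mul_eq_left₀ (hne _ _)).mp h.symm
  have hzero₂ : ∀ P, e P 0 = 1 := fun P => by
    have h := hadd₂ P 0 0
    rw [add_zero] at h
    exact (mul_eq_left₀ (hne _ _)).mp h.symm
  set f : Tor (W'⁄K) n →ₗ[ZMod n] Tor (W'⁄K) n :=
    (galoisRep (S := S) W' n σ).toLinearMap with hf
  set M := LinearMap.toMatrix B B f with hM
  have hcol : ∀ j, σ • B j = (M 0 j).val • B 0 + (M 1 j).val • B 1 := fun j => by
    have h := B.sum_repr (f (B j))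
    rw [Fin.sum_univ_two, ← LinearMap.toMatrix_apply B B f 0 j,
      ← LinearMap.toMatrix_apply B B f 1 j] at h
    rw [← Nat.cast_smul_eq_nsmul (ZMod n), ← Nat.cast_smul_eq_nsmul (ZMod n),
      ZMod.natCast_zmod_val, ZMod.natCast_zmod_val, hM, h]
    rfl
  set ζ := e e₀ e₁ with hζ
  set η := e e₁ e₀ with hη
  have hζη : ζ * η = 1 := by
    have h := halt (e₀ + e₁)
    rwa [hadd₁, hadd₂, hadd₂, halt, halt, one_mul, mul_one] at h
  have hlhs : σ ζ = ζ ^ ((M 0 0).val * (M 1 1).val) * η ^ ((M 1 0).val * (M 0 1).val) := by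
    rw [hζ, hη, ← hgal, hB0, hB1, hcol 0, hcol 1]
    exact pairing_comb e hadd₁ hadd₂ hzero₁ hzero₂ halt _ _ _ _ _ _
  rw [hσ ζ hprim.pow_eq_one] at hlhs
  have hpow : ζ ^ (a + (M 1 0).val * (M 0 1).val) = ζ ^ ((M 0 0).val * (M 1 1).val) := by
    rw [pow_add, hlhs, mul_assoc, ← mul_pow, mul_comm η, hζη, one_pow, mul_one]
  rw [pow_eq_pow_mod _ hprim.pow_eq_one,
    pow_eq_pow_mod ((M 0 0).val * (M 1 1).val) hprim.pow_eq_one] at hpow
  have hcast := (ZMod.natCast_eq_natCast_iff' _ _ n).mpr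
    (hprim.pow_inj (Nat.mod_lt _ (NeZero.pos n)) (Nat.mod_lt _ (NeZero.pos n)) hpow)
  simp only [Nat.cast_add, Nat.cast_mul, ZMod.natCast_zmod_val] at hcast
  rw [LinearEquiv.coe_det, ← LinearMap.det_toMatrix B, Matrix.det_fin_two]
  change M 0 0 * M 1 1 - M 0 1 * M 1 0 = (a : ZMod n)
  linear_combination -hcast

end Fermat.Agent.WeilPairing
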