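import Mathlib.AlgebraicGeometry.EllipticCurve.Affine.Point
import Mathlib.RingTheory.DedekindDomain.AdicValuation
import Mathlib.RingTheory.DedekindDomain.Dvr
import Mathlib.RingTheory.DiscreteValuationRing.TFAE
import Mathlib.RingTheory.Valuation.ExtendToLocalization
import Mathlib.FieldTheory.IsAlgClosed.Basic
import Mathlib.RingTheory.IntegralClosure.IsIntegralClosure.Basic

/-!
# Points of an elliptic curve as places of its function field

For an elliptic curve `W` over an algebraically closed field `F`, the affine coordinate ring is a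
Dedekind domain whose maximal ideals are the `XYIdeal`s of the affine points; together with the
valuation given by the degree of the norm (the point at infinity), these give all normalised
valuations of the function field which are trivial on `F`.
-/

set_option autoImplicit false

open WeierstrassCurve WeierstrassCurve.Affine Polynomial IsDedekindDomain WithZero
open scoped Polynomial.Bivariate nonZeroDivisors

namespace Fermat.Agent.WeilPairing

universe u

variable {F : Type u} [Field F] {W : Affine F}

/-- The maximal ideal of an affine point. -/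
noncomputable def ptIdeal (W : Affine F) (x y : F) : Ideal W.CoordinateRing :=
  CoordinateRing.XYIdeal W x (C y)

/-- The ideal of a point of the curve is maximal. -/
lemma ptIdeal_isMaximal {x y : F} (h : W.Equation x y) : (ptIdeal W x y).IsMaximal :=
  Ideal.Quotient.maximal_of_isField _ <|
    (CoordinateRing.quotientXYIdealEquiv (y := C y) (W' := W)
      h).toMulEquiv.isField (Field.toIsField F)

/-- The ideal of a point is nonzero. -/
lemma ptIdeal_ne_bot (x y : F) : ptIdeal W x y ≠ ⊥ := fun h =>
  CoordinateRing.XClass_ne_zero (W' := W) x <| Ideal.mem_bot.mp <|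
    h ▸ Ideal.subset_span (Set.mem_insert _ _)

instance : Module.Finite F[X] W.CoordinateRing :=
  Module.Finite.of_basis (CoordinateRing.basis W)

lemma coordinateRing_dimensionLEOne : Ring.DimensionLEOne W.CoordinateRing :=
  Ring.DimensionLEOne.of_isIntegral F[X] W.CoordinateRing

section AlgClosed

variable [IsAlgClosed F]

/-- Every maximal ideal of the coordinate ring is the ideal of a point. -/
lemma exists_eq_ptIdeal {m : Ideal W.CoordinateRing} (hm : m.IsMaximal) :
    ∃ x y : F, W.Equation x y ∧ m = ptIdeal W x y := by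
  have hint : Algebra.IsIntegral F[X] W.CoordinateRing := inferInstance
  have hc : (m.comap (algebraMap F[X] W.CoordinateRing)).IsMaximal :=
    Ideal.isMaximal_comap_of_isIntegral_of_isMaximal m
  set q := Submodule.IsPrincipal.generator (m.comap (algebraMap F[X] W.CoordinateRing)) with hq
  have hspan : Ideal.span {q} = m.comap (algebraMap F[X] W.CoordinateRing) :=
    Ideal.span_singleton_generator _
  have hdeg : q.degree ≠ 0 := fun h0 => by
    have : IsUnit q := isUnit_iff_degree_eq_zero.mpr h0
    exact hc.ne_top (hspan ▸ Ideal.span_singleton_eq_top.mpr this)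
  obtain ⟨x, hx⟩ := IsAlgClosed.exists_root q hdeg
  have hX : CoordinateRing.XClass W x ∈ m := by
    have hle : m.comap (algebraMap F[X] W.CoordinateRing) ≤ Ideal.span {X - C x} := by
      rw [← hspan, Ideal.span_singleton_le_span_singleton]
      exact dvd_iff_isRoot.mpr hx
    have heq := hc.eq_of_le (by
      rw [Ne, Ideal.span_singleton_eq_top]
      exact not_isUnit_X_sub_C x) hle
    exact Ideal.mem_comap.mp (heq ▸ Ideal.mem_span_singleton_self (X - C x) :
      (X - C x) ∈ m.comap (algebraMap F[X] W.CoordinateRing))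
  set b := W.a₁ * x + W.a₃ with hb
  set c := -(x ^ 3 + W.a₂ * x ^ 2 + W.a₄ * x + W.a₆) with hc'
  obtain ⟨y, hy⟩ := IsAlgClosed.exists_root (X ^ 2 + C b * X + C c) (by
    have : (X ^ 2 + C b * X + C c).degree = 2 := by compute_degree!
    rw [this]; decide)
  have hy' : y ^ 2 + b * y + c = 0 := by simpa using hy
  have hy₂ : W.Equation x y := by
    rw [equation_iff]; rw [hb, hc'] at hy'; linear_combination hy'
  have hy₁ : W.Equation x (W.negY x y) := (equation_neg ..).mpr hy₂
  have hprod : CoordinateRing.mk W ((Y - C (C y)) * (Y - C (C (W.negY x y)))) ∈ m := by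
    suffices h : ∃ q' : F[X][Y],
        (Y - C (C y)) * (Y - C (C (W.negY x y))) = W.polynomial + C (X - C x) * q' by
      obtain ⟨q', hq'⟩ := h
      rw [hq', map_add, map_mul, AdjoinRoot.mk_self, zero_add]
      exact Ideal.mul_mem_right _ _ hX
    refine ⟨C (X ^ 2 + C (x + W.a₂) * X + C (x ^ 2 + W.a₂ * x + W.a₄)) - C (C W.a₁) * Y, ?_⟩
    linear_combination
      (norm := (rw [negY, WeierstrassCurve.Affine.polynomial]
                simp only [C_neg, C_add, C_sub, C_mul, C_pow]
                ring1))
      congr_arg C (congr_arg C ((equation_iff ..).mp hy₂).symm)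
  rw [map_mul] at hprod
  rcases hm.isPrime.mem_or_mem hprod with h | h
  · exact ⟨x, y, hy₂, ((ptIdeal_isMaximal hy₂).eq_of_le hm.ne_top
      (Ideal.span_le.mpr (Set.insert_subset hX (Set.singleton_subset_iff.mpr h)))).symm⟩
  · exact ⟨x, W.negY x y, hy₁, ((ptIdeal_isMaximal hy₁).eq_of_le hm.ne_top
      (Ideal.span_le.mpr (Set.insert_subset hX (Set.singleton_subset_iff.mpr h)))).symm⟩

/-- An invertible maximal ideal of a domain is locally principal. -/
lemma exists_local_generator {A : Type*} [CommRing A] [IsDomain A] {m J : Ideal A} (hm : m ≠ ⊤)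
    {a : A} (ha : a ≠ 0) (h : m * J = Ideal.span {a}) :
    ∃ t ∈ m, ∃ u ∉ m, ∀ z ∈ m, ∃ c, z * u = t * c := by
  have key : ∃ t ∈ m, ∃ j ∈ J, t * j ∉ Ideal.span {a} * m := by
    by_contra hcon
    push Not at hcon
    have h1 : Ideal.span {a} ≤ Ideal.span {a} * m := h.symm.le.trans (Ideal.mul_le.mpr hcon)
    obtain ⟨z, hz, hza⟩ := Ideal.mem_span_singleton_mul.mp (h1 (Ideal.mem_span_singleton_self a))
    apply hm
    rw [Ideal.eq_top_iff_one]
    exact (mul_eq_left₀ ha).mp hza ▸ hz
  obtain ⟨t, ht, j, hj, htj⟩ := key
  obtain ⟨u, hu⟩ := Ideal.mem_span_singleton'.mp (h ▸ Ideal.mul_mem_mul ht hj)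
  refine ⟨t, ht, u, fun hum => htj ?_, fun z hz => ?_⟩
  · rw [← hu, mul_comm u a]
    exact Ideal.mul_mem_mul (Ideal.mem_span_singleton_self a) hum
  · obtain ⟨c, hc⟩ := Ideal.mem_span_singleton'.mp (h ▸ Ideal.mul_mem_mul hz hj)
    refine ⟨c, mul_left_cancel₀ ha ?_⟩
    linear_combination z * hu - t * hc

variable [W.IsElliptic]

lemma coordinateRing_isDedekindDomain : IsDedekindDomain W.CoordinateRing := by
  have hdim := coordinateRing_dimensionLEOne (W := W)
  have hNoeth : IsNoetherianRing W.CoordinateRing :=
    IsNoetherianRing.of_finite F[X] W.CoordinateRing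
  suffices h : IsDedekindDomainDvr W.CoordinateRing by infer_instance
  refine { hNoeth with is_dvr_at_nonzero_prime := fun P hP hPp => ?_ }
  have hPm : P.IsMaximal := hdim.maximalOfPrime hP hPp
  obtain ⟨x, y, hxy, rfl⟩ := exists_eq_ptIdeal hPm
  set A := W.CoordinateRing
  set L := Localization.AtPrime (ptIdeal W x y) with hL
  obtain ⟨t, ht, u, hu, htu⟩ := exists_local_generator hPm.ne_top
    (CoordinateRing.XClass_ne_zero (W' := W) x)
    ((mul_comm _ _).trans (CoordinateRing.XYIdeal_neg_mul (equation_iff_nonsingular.mp hxy)))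
  have : IsNoetherianRing L := IsLocalization.isNoetherianRing (ptIdeal W x y).primeCompl L hNoeth
  have hprin : (IsLocalRing.maximalIdeal L).IsPrincipal := by
    refine ⟨⟨algebraMap A L t, ?_⟩⟩
    rw [← IsLocalization.AtPrime.map_eq_maximalIdeal (ptIdeal W x y) L]
    refine le_antisymm (Ideal.map_le_iff_le_comap.mpr fun z hz => ?_) ?_
    · obtain ⟨c, hc⟩ := htu z hz
      have hu' : IsUnit (algebraMap A L u) := IsLocalization.map_units L
        (⟨u, hu⟩ : (ptIdeal W x y).primeCompl)
      rw [Ideal.mem_comap, Ideal.submodule_span_eq, Ideal.mem_span_singleton, ← hu'.dvd_mul_right,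
        ← map_mul, hc, map_mul]
      exact dvd_mul_right _ _
    · rw [Ideal.submodule_span_eq, Ideal.span_singleton_le_iff_mem]
      exact Ideal.mem_map_of_mem _ ht
  exact ((IsDiscreteValuationRing.TFAE L
    (IsLocalization.AtPrime.not_isField A hP L)).out 0 4).mpr hprin

instance : IsDedekindDomain W.CoordinateRing := coordinateRing_isDedekindDomain

/-- The height one prime attached to an affine point. -/
noncomputable def ptPrime {x y : F} (h : W.Nonsingular x y) :
    HeightOneSpectrum W.CoordinateRing where
  asIdeal := ptIdeal W x y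
  isPrime := (ptIdeal_isMaximal h.left).isPrime
  ne_bot := ptIdeal_ne_bot x y

/-- Every height one prime belongs to an affine point. -/
lemma exists_eq_ptPrime (v : HeightOneSpectrum W.CoordinateRing) :
    ∃ (x y : F) (h : W.Nonsingular x y), v = ptPrime h := by
  obtain ⟨x, y, hxy, h⟩ := exists_eq_ptIdeal v.isMaximal
  exact ⟨x, y, equation_iff_nonsingular.mp hxy, HeightOneSpectrum.ext h⟩

end AlgClosed

end Fermat.Agent.WeilPairing
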