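import Fermat.Agent.WeilPairing.Places

/-!
# Every normalised valuation of the function field comes from a point
-/

set_option autoImplicit false

open WeierstrassCurve WeierstrassCurve.Affine Polynomial IsDedekindDomain WithZero
open scoped Polynomial.Bivariate nonZeroDivisors

namespace Fermat.Agent.WeilPairing

universe u

variable {F : Type u} [Field F] {W : Affine F}

/-- The coordinate functions satisfy the Weierstrass equation. -/
lemma xgen_ygen_equation :
    ygen W ^ 2 + cst W W.a₁ * xgen W * ygen W + cst W W.a₃ * ygen W =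
      xgen W ^ 3 + cst W W.a₂ * xgen W ^ 2 + cst W W.a₄ * xgen W + cst W W.a₆ := by
  have h0 : toFF W (CoordinateRing.mk W (Y ^ 2 + C (C W.a₁ * X + C W.a₃) * Y -
      C (X ^ 3 + C W.a₂ * X ^ 2 + C W.a₄ * X + C W.a₆))) = 0 := by
    rw [show (Y ^ 2 + C (C W.a₁ * X + C W.a₃) * Y -
      C (X ^ 3 + C W.a₂ * X ^ 2 + C W.a₄ * X + C W.a₆) : F[X][Y]) = W.polynomial from rfl,
      AdjoinRoot.mk_self, map_zero]
  simp only [map_add, map_sub, map_mul, map_pow] at h0
  simp only [xgen, ygen, cst_eq]
  linear_combination h0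

/-- A valuation trivial on nonzero constants is at most `1` on all constants. -/
lemma le_one_of_const (v : Valuation W.FunctionField ℤᵐ⁰)
    (hv : ∀ c : F, c ≠ 0 → v (cst W c) = 1) (c : F) : v (cst W c) ≤ 1 := by
  rcases eq_or_ne c 0 with rfl | hc
  · simp
  · exact (hv c hc).le

lemma val_eval₂_le_one (v : Valuation W.FunctionField ℤᵐ⁰)
    (hv : ∀ c : F, c ≠ 0 → v (cst W c) = 1) (hx : v (xgen W) ≤ 1) (p : F[X]) :
    v (p.eval₂ (cst W) (xgen W)) ≤ 1 := by
  induction p using Polynomial.induction_on' with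
  | add a b ha hb => rw [eval₂_add]; exact (v.map_add _ _).trans (max_le ha hb)
  | monomial n a =>
    rw [eval₂_monomial, map_mul, map_pow]
    exact mul_le_one' (le_one_of_const v hv a) (pow_le_one' hx n)

lemma val_ygen_le_one (v : Valuation W.FunctionField ℤᵐ⁰)
    (hv : ∀ c : F, c ≠ 0 → v (cst W c) = 1) (hx : v (xgen W) ≤ 1) : v (ygen W) ≤ 1 := by
  by_contra hy
  rw [not_le] at hy
  have hrhs : v (xgen W ^ 3 + cst W W.a₂ * xgen W ^ 2 + cst W W.a₄ * xgen W + cst W W.a₆) ≤ 1 := by
    have := val_eval₂_le_one v hv hx (X ^ 3 + C W.a₂ * X ^ 2 + C W.a₄ * X + C W.a₆)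
    simpa using this
  have h1 : v (cst W W.a₁ * xgen W * ygen W + cst W W.a₃ * ygen W) < v (ygen W ^ 2) := by
    refine lt_of_le_of_lt ((v.map_add _ _).trans (max_le ?_ ?_))
      (show v (ygen W) < v (ygen W ^ 2) from ?_)
    · rw [map_mul, map_mul]
      exact mul_le_of_le_one_left' (mul_le_one' (le_one_of_const v hv _) hx)
    · rw [map_mul]
      exact mul_le_of_le_one_left' (le_one_of_const v hv _)
    · rw [map_pow]; exact lt_self_pow₀ hy one_lt_two
  have h2 := v.map_add_eq_of_lt_left h1
  rw [← add_assoc, xgen_ygen_equation] at h2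
  rw [h2, map_pow] at hrhs
  exact absurd hrhs (not_le.mpr (lt_of_lt_of_le hy (le_self_pow hy.le two_ne_zero)))

lemma val_toFF_le_one (v : Valuation W.FunctionField ℤᵐ⁰)
    (hv : ∀ c : F, c ≠ 0 → v (cst W c) = 1) (hx : v (xgen W) ≤ 1) (f : W.CoordinateRing) :
    v (toFF W f) ≤ 1 := by
  obtain ⟨p, q, rfl⟩ := CoordinateRing.exists_smul_basis_eq f
  rw [toFF_smul_basis]
  refine (v.map_add _ _).trans (max_le (val_eval₂_le_one v hv hx p) ?_)
  rw [map_mul]
  exact mul_le_one' (val_eval₂_le_one v hv hx q) (val_ygen_le_one v hv hx)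

/-- Comparison with a normalised valuation: if `v` is trivial on the units of `w`, and `v` and `w`
are both surjective with `v π < 1` at a uniformiser `π` of `w`, then they agree. -/
lemma eq_of_unit_imp {K : Type*} [Field K] (v w : Valuation K ℤᵐ⁰) (hv : Function.Surjective v)
    (h1 : ∀ x, w x = 1 → v x = 1) (π : K) (hπ : w π = exp (-1 : ℤ)) (hπ' : v π < 1) : v = w := by
  have hπ0 : π ≠ 0 := (Valuation.ne_zero_iff w).mp (hπ ▸ exp_ne_zero)
  obtain ⟨k, hk⟩ : ∃ k : ℤ, v π = exp k :=
    ⟨_, (exp_log ((Valuation.ne_zero_iff v).mpr hπ0)).symm⟩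
  have hgen : ∀ x, x ≠ 0 → v x = exp (-(log (w x)) * k) := by
    intro x hx
    have hw : w (x * π ^ (log (w x))) = 1 := by
      rw [map_mul, map_zpow₀, hπ, ← exp_zsmul]
      nth_rw 1 [← exp_log ((Valuation.ne_zero_iff w).mpr hx)]
      rw [← exp_add]; simp
    have h := h1 _ hw
    rw [map_mul, map_zpow₀, hk, ← exp_zsmul, smul_eq_mul] at h
    rw [eq_inv_of_mul_eq_one_left h, ← exp_neg]
    congr 1; ring
  obtain ⟨z, hz⟩ := hv (exp (1 : ℤ))
  have hz0 : z ≠ 0 := (Valuation.ne_zero_iff v).mp (hz ▸ exp_ne_zero)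
  have h1k : -(log (w z)) * k = 1 := exp_injective ((hgen z hz0).symm.trans hz)
  have hk1 : k = -1 := by
    rw [hk, ← exp_zero, exp_lt_exp] at hπ'
    rcases Int.eq_one_or_neg_one_of_mul_eq_one (by rwa [mul_comm] at h1k) with h | h
    · omega
    · exact h
  refine Valuation.ext fun x => ?_
  rcases eq_or_ne x 0 with rfl | hx
  · simp
  · rw [hgen x hx, hk1]
    simp [exp_log ((Valuation.ne_zero_iff w).mpr hx)]

variable [IsAlgClosed F] [W.IsElliptic]

lemma eq_placeVal_of_le_one (v : Valuation W.FunctionField ℤᵐ⁰)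
    (hv : ∀ c : F, c ≠ 0 → v (cst W c) = 1) (hs : Function.Surjective v)
    (hx : v (xgen W) ≤ 1) : ∃ P : W.Point, v = placeVal P := by
  let p : Ideal W.CoordinateRing :=
  { carrier := {f | v (toFF W f) < 1}
    add_mem' := fun {a b} ha hb => by
      simp only [Set.mem_ofPred_eq, map_add] at *
      exact v.map_add_lt ha hb
    zero_mem' := by simp
    smul_mem' := fun c a ha => by
      simp only [Set.mem_ofPred_eq, smul_eq_mul, map_mul] at *
      exact lt_of_le_of_lt (mul_le_of_le_one_left' (val_toFF_le_one v hv hx c)) ha }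
  have hmem : ∀ f, f ∈ p ↔ v (toFF W f) < 1 := fun f => Iff.rfl
  have hp : p.IsPrime := by
    refine ⟨fun h => ?_, fun {a b} hab => ?_⟩
    · have h1 : (1 : W.CoordinateRing) ∈ p := h ▸ Submodule.mem_top
      simp [hmem] at h1
    · simp only [hmem, map_mul] at *
      by_contra hcon
      rw [not_or, not_lt, not_lt] at hcon
      exact absurd hab (not_lt.mpr (one_le_mul hcon.1 hcon.2))
  have hp0 : p ≠ ⊥ := by
    intro h
    have h1 : ∀ f : W.CoordinateRing, f ≠ 0 → v (toFF W f) = 1 := fun f hf =>
      le_antisymm (val_toFF_le_one v hv hx f)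
        (not_lt.mp fun hlt => hf (by simpa [h] using (hmem f).mpr hlt))
    obtain ⟨z, hz⟩ := hs (exp (1 : ℤ))
    obtain ⟨a, b, hb, rfl⟩ := IsFractionRing.div_surjective (A := W.CoordinateRing) z
    rcases eq_or_ne a 0 with rfl | ha
    · simp only [map_zero, zero_div] at hz
      exact exp_ne_zero hz.symm
    · rw [map_div₀, h1 a ha, h1 b (nonZeroDivisors.ne_zero hb), div_one, ← exp_zero] at hz
      exact zero_ne_one (exp_injective hz)
  obtain ⟨x, y, hxy, hpm⟩ := exists_eq_ptIdeal (hp.isMaximal hp0)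
  have h : W.Nonsingular x y := equation_iff_nonsingular.mp hxy
  refine ⟨.some x y h, ?_⟩
  obtain ⟨π, hπ⟩ := (ptPrime h).valuation_exists_uniformizer' W.FunctionField
  refine eq_of_unit_imp v _ hs (fun z hz => ?_) (toFF W π) hπ ?_
  · obtain ⟨n, d, hnd⟩ :=
      (ptPrime h).exists_primeCompl_mul_eq_of_integer z (K := W.FunctionField) hz.le
    have hd : v (toFF W d) = 1 := le_antisymm (val_toFF_le_one v hv hx _)
      (not_lt.mp fun hlt => d.prop (by
        show (d : W.CoordinateRing) ∈ ptIdeal W x y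
        rw [← hpm]; exact (hmem _).mpr hlt))
    have hn : v (toFF W n) = 1 := by
      refine le_antisymm (val_toFF_le_one v hv hx _) (not_lt.mp fun hlt => ?_)
      have hnm : placeVal (.some x y h) (toFF W n) < 1 := by
        rw [← mem_ptIdeal_iff, ← hpm]; exact (hmem _).mpr hlt
      have hdm : ¬placeVal (.some x y h) (toFF W d) < 1 := by
        rw [← mem_ptIdeal_iff]; exact d.prop
      apply hdm
      have := congr_arg (placeVal (.some x y h)) hnd
      rw [map_mul, hz, one_mul] at this
      rwa [← this] at hnm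
    have := congr_arg v hnd
    rwa [map_mul, hd, mul_one, hn] at this
  · have hlt : placeVal (.some x y h) (toFF W π) < 1 := by
      show (ptPrime h).valuation W.FunctionField _ < 1
      rw [hπ, ← exp_zero]; exact exp_lt_exp.mpr (by norm_num)
    exact (hmem π).mp (hpm ▸ (mem_ptIdeal_iff h π).mpr hlt)

omit [IsAlgClosed F] [W.IsElliptic] in
lemma val_eval₂_of_one_lt (v : Valuation W.FunctionField ℤᵐ⁰)
    (hv : ∀ c : F, c ≠ 0 → v (cst W c) = 1) (hx : 1 < v (xgen W)) {p : F[X]} (hp : p ≠ 0) :
    v (p.eval₂ (cst W) (xgen W)) = v (xgen W) ^ p.natDegree := by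
  induction hn : p.natDegree generalizing p with
  | zero =>
    rw [eq_C_of_natDegree_eq_zero hn, eval₂_C, hv _ ?_, pow_zero]
    intro h0; exact hp (by rw [eq_C_of_natDegree_eq_zero hn, h0, C_0])
  | succ k ih =>
    have hd : p.divX ≠ 0 := fun h0 => by
      have := natDegree_divX_eq_natDegree_tsub_one (p := p)
      have h1 := X_mul_divX_add p
      rw [h0, mul_zero, zero_add] at h1
      rw [← h1, natDegree_C] at hn
      omega
    have hdeg : p.divX.natDegree = k := by
      rw [natDegree_divX_eq_natDegree_tsub_one, hn]; omega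
    conv_lhs => rw [← X_mul_divX_add p]
    rw [eval₂_add, eval₂_mul, eval₂_X, eval₂_C]
    have hmain : v (xgen W * p.divX.eval₂ (cst W) (xgen W)) = v (xgen W) ^ (k + 1) := by
      rw [map_mul, ih hd hdeg, pow_succ']
    rw [v.map_add_eq_of_lt_left (lt_of_le_of_lt (le_one_of_const v hv _)
      (hmain ▸ one_lt_pow₀ hx (Nat.succ_ne_zero k))), hmain]

lemma eq_placeVal_zero_of_one_lt (v : Valuation W.FunctionField ℤᵐ⁰)
    (hv : ∀ c : F, c ≠ 0 → v (cst W c) = 1) (hs : Function.Surjective v)
    (hx : 1 < v (xgen W)) : v = placeVal (0 : W.Point) := by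
  have hy : v (xgen W) < v (ygen W) := by
    by_contra hy
    rw [not_lt] at hy
    have hL : v (ygen W ^ 2 + cst W W.a₁ * xgen W * ygen W + cst W W.a₃ * ygen W) ≤
        v (xgen W) ^ 2 := by
      refine (v.map_add _ _).trans (max_le ((v.map_add _ _).trans (max_le ?_ ?_)) ?_)
      · rw [map_pow]; exact pow_le_pow_left₀ (zero_le) hy 2
      · rw [map_mul, map_mul, sq, mul_assoc]
        exact (mul_le_of_le_one_left' (le_one_of_const v hv _)).trans (mul_le_mul' le_rfl hy)
      · rw [map_mul]
        exact ((mul_le_of_le_one_left' (le_one_of_const v hv _)).trans hy).trans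
          (le_self_pow hx.le two_ne_zero)
    have hR : v (xgen W ^ 3 + cst W W.a₂ * xgen W ^ 2 + cst W W.a₄ * xgen W + cst W W.a₆) =
        v (xgen W) ^ 3 := by
      have := val_eval₂_of_one_lt v hv hx (p := X ^ 3 + C W.a₂ * X ^ 2 + C W.a₄ * X + C W.a₆)
        (fun h0 => by simpa [coeff_C] using congr_arg (coeff · 3) h0)
      rw [show (X ^ 3 + C W.a₂ * X ^ 2 + C W.a₄ * X + C W.a₆ : F[X]).natDegree = 3 by
        compute_degree!] at this
      simpa using this
    rw [xgen_ygen_equation, hR] at hL
    exact absurd hL (not_le.mpr (pow_lt_pow_right₀ hx (by norm_num)))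
  have hy1 : 1 < v (ygen W) := hx.trans hy
  have hlin : v (ygen W) ^ 2 = v (xgen W) ^ 3 := by
    have h1 : v (cst W W.a₁ * xgen W * ygen W + cst W W.a₃ * ygen W) < v (ygen W ^ 2) := by
      refine v.map_add_lt ?_ ?_
      · rw [map_mul, map_mul, map_pow, sq]
        exact lt_of_le_of_lt
          (mul_le_mul' (mul_le_of_le_one_left' (le_one_of_const v hv _)) le_rfl)
          (mul_lt_mul_of_pos_right hy (zero_lt_one.trans hy1))
      · rw [map_mul, map_pow]
        exact lt_of_le_of_lt (mul_le_of_le_one_left' (le_one_of_const v hv _))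
          (lt_self_pow₀ hy1 one_lt_two)
    have h2 := v.map_add_eq_of_lt_left h1
    rw [← add_assoc, xgen_ygen_equation] at h2
    have := val_eval₂_of_one_lt v hv hx (p := X ^ 3 + C W.a₂ * X ^ 2 + C W.a₄ * X + C W.a₆)
      (fun h0 => by simpa [coeff_C] using congr_arg (coeff · 3) h0)
    rw [show (X ^ 3 + C W.a₂ * X ^ 2 + C W.a₄ * X + C W.a₆ : F[X]).natDegree = 3 by
      compute_degree!] at this
    simp only [eval₂_add, eval₂_mul, eval₂_pow, eval₂_X, eval₂_C] at this
    rw [h2, map_pow] at this
    exact this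
  have hx0 : v (xgen W) ≠ 0 := (zero_lt_one.trans hx).ne'
  have hy0 : v (ygen W) ≠ 0 := (zero_lt_one.trans hy1).ne'
  set a := log (v (xgen W)) with ha
  set b := log (v (ygen W)) with hb
  have hab : 2 * b = 3 * a := by
    have := congr_arg log hlin
    simpa [log_pow, ← ha, ← hb] using this
  obtain ⟨k, hk⟩ : ∃ k : ℤ, a = 2 * k := ⟨a / 2, by omega⟩
  have hbk : b = 3 * k := by omega
  have hk0 : 0 < k := by
    have : (1 : ℤᵐ⁰) < exp a := by rwa [ha, exp_log hx0]
    rw [← exp_zero, exp_lt_exp] at this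
    omega
  have hvx : v (xgen W) = exp (2 * k) := by rw [← hk, ha, exp_log hx0]
  have hvy : v (ygen W) = exp (3 * k) := by rw [← hbk, hb, exp_log hy0]
  have hA : ∀ f : W.CoordinateRing, f ≠ 0 →
      v (toFF W f) = exp (k * ((Algebra.norm F[X] f).natDegree : ℤ)) := by
    intro f hf
    obtain ⟨p, q, rfl⟩ := CoordinateRing.exists_smul_basis_eq f
    rw [toFF_smul_basis]
    have hP : ∀ r : F[X], r ≠ 0 →
        v (r.eval₂ (cst W) (xgen W)) = exp (k * (2 * r.natDegree : ℤ)) := by
      intro r hr
      rw [val_eval₂_of_one_lt v hv hx hr, hvx, ← exp_nsmul]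
      congr 1; simp; ring
    have hN := CoordinateRing.degree_norm_smul_basis (W' := W) p q
    rcases eq_or_ne q 0 with rfl | hq
    · have hp : p ≠ 0 := by rintro rfl; simp at hf
      rw [degree_zero, degree_eq_natDegree hp] at hN
      have : (Algebra.norm F[X]
          (p • 1 + (0 : F[X]) • CoordinateRing.mk W Y)).natDegree = 2 * p.natDegree := by
        refine natDegree_eq_of_degree_eq_some (hN.trans ?_)
        simp
      rw [this, eval₂_zero, zero_mul, add_zero, hP p hp]
      push_cast; rfl
    · have hQ : v (q.eval₂ (cst W) (xgen W) * ygen W) = exp (k * (2 * q.natDegree + 3 : ℤ)) := by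
        rw [map_mul, hP q hq, hvy, ← exp_add]; congr 1; ring
      rcases eq_or_ne p 0 with rfl | hp
      · rw [degree_zero, degree_eq_natDegree hq] at hN
        have : (Algebra.norm F[X] ((0 : F[X]) • 1 + q • CoordinateRing.mk W Y)).natDegree =
            2 * q.natDegree + 3 := by
          refine natDegree_eq_of_degree_eq_some (hN.trans ?_)
          simp
        rw [this, eval₂_zero, zero_add, hQ]
        push_cast; rfl
      · rw [degree_eq_natDegree hp, degree_eq_natDegree hq] at hN
        have : (Algebra.norm F[X] (p • 1 + q • CoordinateRing.mk W Y)).natDegree =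
            max (2 * p.natDegree) (2 * q.natDegree + 3) := by
          refine natDegree_eq_of_degree_eq_some (hN.trans ?_)
          simp [nsmul_eq_mul]
          norm_cast
        rw [this]
        rcases lt_or_gt_of_ne (show 2 * p.natDegree ≠ 2 * q.natDegree + 3 by omega) with hlt | hlt
        · rw [max_eq_right hlt.le, v.map_add_eq_of_lt_right]
          · rw [hQ]; push_cast; rfl
          · rw [hP p hp, hQ, exp_lt_exp]
            exact mul_lt_mul_of_pos_left (by exact_mod_cast hlt) hk0
        · rw [max_eq_left hlt.le, v.map_add_eq_of_lt_left]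
          · rw [hP p hp]; push_cast; rfl
          · rw [hP p hp, hQ, exp_lt_exp]
            exact mul_lt_mul_of_pos_left (by exact_mod_cast hlt) hk0
  have hgen : ∀ z, z ≠ 0 → v z = exp (k * log (placeVal (0 : W.Point) z)) := by
    intro z hz
    obtain ⟨f, g, hg, rfl⟩ := IsFractionRing.div_surjective (A := W.CoordinateRing) z
    have hg0 := nonZeroDivisors.ne_zero hg
    have hf0 : f ≠ 0 := by rintro rfl; simp at hz
    rw [map_div₀, map_div₀, hA f hf0, hA g hg0, placeVal_zero_toFF, placeVal_zero_toFF,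
      infValA_apply hf0, infValA_apply hg0, ← exp_sub, ← exp_sub, log_exp, mul_sub]
  obtain ⟨z, hz⟩ := hs (exp (1 : ℤ))
  have hz0 : z ≠ 0 := (Valuation.ne_zero_iff v).mp (hz ▸ exp_ne_zero)
  have hk1 : k = 1 := Int.eq_one_of_mul_eq_one_right hk0.le
    (exp_injective ((hgen z hz0).symm.trans hz))
  refine Valuation.ext fun x => ?_
  rcases eq_or_ne x 0 with rfl | hx'
  · simp
  · rw [hgen x hx', hk1, one_mul, exp_log ((Valuation.ne_zero_iff _).mpr hx')]

/-- Classification of normalised valuations of the function field trivial on constants. -/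
theorem exists_eq_placeVal (v : Valuation W.FunctionField ℤᵐ⁰)
    (hv : ∀ c : F, c ≠ 0 → v (cst W c) = 1) (hs : Function.Surjective v) :
    ∃ P : W.Point, v = placeVal P := by
  rcases le_or_gt (v (xgen W)) 1 with hx | hx
  · exact eq_placeVal_of_le_one v hv hs hx
  · exact ⟨0, eq_placeVal_zero_of_one_lt v hv hs hx⟩

/-- A place at which `X - x` and `Y - y` vanish is the point `(x, y)`. -/
lemma eq_some_of_lt_one {P : W.Point} {x y : F}
    (hx : placeVal P (xgen W - cst W x) < 1) (hy : placeVal P (ygen W - cst W y) < 1) :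
    ∃ h : W.Nonsingular x y, P = .some x y h := by
  cases P with
  | zero =>
    exfalso
    have hlt : placeVal (0 : W.Point) (cst W x) < placeVal (0 : W.Point) (xgen W) := by
      rw [placeVal_zero_xgen]
      exact lt_of_le_of_lt (le_one_of_const (placeVal (0 : W.Point)) (fun c => placeVal_cst 0) x)
        (by rw [← exp_zero]; exact exp_lt_exp.mpr (by norm_num))
    rw [← Point.zero_def, Valuation.map_sub_eq_of_lt_left _ hlt, placeVal_zero_xgen, ← exp_zero,
      exp_lt_exp] at hx
    norm_num at hx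
  | some x' y' h' =>
    have key : ∀ {g : W.FunctionField} {c c' : F},
        placeVal (.some x' y' h') (g - cst W c) < 1 →
        placeVal (.some x' y' h') (g - cst W c') < 1 → c = c' := by
      intro g c c' h1 h2
      by_contra hne
      have h3 := Valuation.map_sub (placeVal (.some x' y' h')) (g - cst W c') (g - cst W c)
      rw [sub_sub_sub_cancel_left, ← map_sub, placeVal_cst _ (sub_ne_zero.mpr hne)] at h3
      exact absurd h3 (not_le.mpr (max_lt h2 h1))
    obtain rfl := key hx (placeVal_some_xgen h')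
    obtain rfl := key hy (placeVal_some_ygen h')
    exact ⟨h', rfl⟩

/-- Distinct points give distinct valuations. -/
lemma placeVal_injective : Function.Injective (placeVal (W := W)) := by
  intro P Q h
  cases Q with
  | zero =>
    cases P with
    | zero => rfl
    | some x y hxy =>
      exfalso
      have h1 := placeVal_some_xgen_le hxy
      rw [h, ← Point.zero_def, placeVal_zero_xgen, ← exp_zero, exp_le_exp] at h1
      norm_num at h1
  | some x y hxy =>
    obtain ⟨_, rfl⟩ := eq_some_of_lt_one (P := P) (h.symm ▸ placeVal_some_xgen hxy)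
      (h.symm ▸ placeVal_some_ygen hxy)
    rfl

end Fermat.Agent.WeilPairing
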