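import Fermat.Agent.WeilPairing.Classify
import Mathlib.GroupTheory.QuotientGroup.Basic

/-!
# Principal divisors on an elliptic curve (Abel's theorem)
-/

set_option autoImplicit false

open WeierstrassCurve WeierstrassCurve.Affine Polynomial IsDedekindDomain WithZero
open scoped Polynomial.Bivariate nonZeroDivisors

namespace Fermat.Agent.WeilPairing

universe u

variable {F : Type u} [Field F] {W : Affine F} [IsAlgClosed F] [W.IsElliptic]

lemma ordAt_some_toFF {x y : F} (h : W.Nonsingular x y) {f : W.CoordinateRing} (hf : f ≠ 0) :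
    ordAt (.some x y h) (toFF W f) = (multiplicity (ptIdeal W x y) (Ideal.span {f}) : ℤ) := by
  rw [ordAt, placeVal_some_toFF, HeightOneSpectrum.intValuation_eq_exp_neg_multiplicity _ hf,
    log_exp, neg_neg]
  rfl

lemma ordAt_zero_toFF {f : W.CoordinateRing} (hf : f ≠ 0) :
    ordAt (0 : W.Point) (toFF W f) = -((Algebra.norm F[X] f).natDegree : ℤ) := by
  rw [ordAt, placeVal_zero_toFF, infValA_apply hf, log_exp]

lemma multiplicity_ptIdeal_mul {x y : F} (h : W.Nonsingular x y) {I J : Ideal W.CoordinateRing}
    (hI : I ≠ ⊥) (hJ : J ≠ ⊥) :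
    multiplicity (ptIdeal W x y) (I * J) =
      multiplicity (ptIdeal W x y) I + multiplicity (ptIdeal W x y) J :=
  multiplicity_mul (ptPrime h).prime
    (FiniteMultiplicity.of_prime_left (ptPrime h).prime (mul_ne_zero hI hJ))

lemma ptIdeal_eq_imp {x y x' y' : F} (h : W.Nonsingular x y)
    (he : ptIdeal W x y = ptIdeal W x' y') : x = x' ∧ y = y' := by
  have hx : placeVal (.some x y h) (xgen W - cst W x') < 1 := by
    rw [← toFF_XClass, ← mem_ptIdeal_iff h, he]
    exact Ideal.subset_span (Set.mem_insert _ _)
  have hy : placeVal (.some x y h) (ygen W - cst W y') < 1 := by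
    rw [← toFF_YClass_C, ← mem_ptIdeal_iff h, he]
    exact Ideal.subset_span (Set.mem_insert_of_mem _ rfl)
  obtain ⟨_, he'⟩ := eq_some_of_lt_one hx hy
  exact Point.some.inj he'

lemma multiplicity_ptIdeal_ptIdeal [DecidableEq F] {x y x' y' : F} (h : W.Nonsingular x y)
    (h' : W.Nonsingular x' y') :
    (multiplicity (ptIdeal W x y) (ptIdeal W x' y') : ℤ) =
      Finsupp.single (Point.some x' y' h' : W.Point) (1 : ℤ) (.some x y h) := by
  classical
  rw [Finsupp.single_apply]
  by_cases he : (Point.some x' y' h' : W.Point) = .some x y h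
  · obtain ⟨rfl, rfl⟩ := Point.some.inj he
    rw [if_pos rfl, multiplicity_self]; rfl
  · rw [if_neg he, Nat.cast_eq_zero, multiplicity_eq_zero]
    intro hdvd
    have hle := Ideal.le_of_dvd hdvd
    obtain ⟨rfl, rfl⟩ := ptIdeal_eq_imp h
      ((ptIdeal_isMaximal h'.left).eq_of_le (ptIdeal_isMaximal h.left).ne_top hle).symm
    exact he rfl

variable [DecidableEq F]

open Finsupp in
/-- The line functions: `(A) + (B) - (A + B) - (O)` is a principal divisor. -/
lemma exists_miller (A B : W.Point) : ∃ f : W.FunctionField, f ≠ 0 ∧ ∀ Q : W.Point,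
    ordAt Q f =
      (single A (1 : ℤ) + single B 1 - single (A + B) 1 - single 0 1 : W.Point →₀ ℤ) Q := by
  cases A with
  | zero =>
    refine ⟨1, one_ne_zero, fun Q => ?_⟩
    rw [← Point.zero_def, zero_add]; simp
  | some x₁ y₁ h₁ =>
  cases B with
  | zero =>
    refine ⟨1, one_ne_zero, fun Q => ?_⟩
    rw [← Point.zero_def, add_zero]; simp
  | some x₂ y₂ h₂ =>
  by_cases hxy : x₁ = x₂ ∧ y₁ = W.negY x₂ y₂
  · rw [Point.add_of_Y_eq hxy.1 hxy.2]
    have hX := CoordinateRing.XClass_ne_zero (W' := W) x₂
    refine ⟨toFF W (CoordinateRing.XClass W x₂), toFF_ne_zero hX, fun Q => ?_⟩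
    cases Q with
    | zero =>
      rw [← Point.zero_def, ordAt_zero_toFF hX]
      have hd : (Algebra.norm F[X] (CoordinateRing.XClass W x₂)).degree = 2 := by
        rw [show CoordinateRing.XClass W x₂ = (X - C x₂) • (1 : W.CoordinateRing) +
            (0 : F[X]) • CoordinateRing.mk W Y by
          rw [zero_smul, add_zero, CoordinateRing.smul, mul_one]; rfl,
          CoordinateRing.degree_norm_smul_basis, degree_X_sub_C, degree_zero]
        rfl
      rw [natDegree_eq_of_degree_eq_some hd]
      simp
    | some x y h =>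
      rw [ordAt_some_toFF h hX,
        show Ideal.span {CoordinateRing.XClass W x₂} = CoordinateRing.XIdeal W x₂ from rfl,
        ← CoordinateRing.XYIdeal_neg_mul h₂]
      change ((multiplicity (ptIdeal W x y)
        (ptIdeal W x₂ (W.negY x₂ y₂) * ptIdeal W x₂ y₂) : ℕ) : ℤ) = _
      rw [multiplicity_ptIdeal_mul h (ptIdeal_ne_bot _ _) (ptIdeal_ne_bot _ _), Nat.cast_add,
        multiplicity_ptIdeal_ptIdeal h ((nonsingular_neg ..).mpr h₂),
        multiplicity_ptIdeal_ptIdeal h h₂]
      obtain ⟨rfl, rfl⟩ := hxy
      simp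
  · rw [Point.add_some hxy]
    set l := W.slope x₁ x₂ y₁ y₂ with hl
    set x₃ := W.addX x₁ x₂ l
    set y₃ := W.addY x₁ x₂ y₁ l
    set ℓ := linePolynomial x₁ y₁ l with hℓ
    have hY := CoordinateRing.YClass_ne_zero (W' := W) ℓ
    have hX := CoordinateRing.XClass_ne_zero (W' := W) x₃
    refine ⟨toFF W (CoordinateRing.YClass W ℓ) / toFF W (CoordinateRing.XClass W x₃),
      div_ne_zero (toFF_ne_zero hY) (toFF_ne_zero hX), fun Q => ?_⟩
    rw [ordAt_div _ (toFF_ne_zero hY) (toFF_ne_zero hX)]
    cases Q with
    | zero =>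
      rw [← Point.zero_def, ordAt_zero_toFF hY, ordAt_zero_toFF hX]
      have hdY : (Algebra.norm F[X] (CoordinateRing.YClass W ℓ)).degree = 3 := by
        rw [show CoordinateRing.YClass W ℓ = (-ℓ) • (1 : W.CoordinateRing) +
            (1 : F[X]) • CoordinateRing.mk W Y by
          rw [one_smul, CoordinateRing.smul, mul_one, CoordinateRing.YClass, C_neg, map_neg,
            map_sub]; ring,
          CoordinateRing.degree_norm_smul_basis, degree_one, degree_neg]
        have : ℓ.degree ≤ 1 := by
          rw [hℓ, linePolynomial]; compute_degree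
        refine le_antisymm (max_le ((nsmul_le_nsmul_right this 2).trans ?_) le_rfl)
          (le_max_right _ _)
        exact WithBot.coe_le_coe.mpr (by norm_num)
      have hdX : (Algebra.norm F[X] (CoordinateRing.XClass W x₃)).degree = 2 := by
        rw [show CoordinateRing.XClass W x₃ = (X - C x₃) • (1 : W.CoordinateRing) +
            (0 : F[X]) • CoordinateRing.mk W Y by
          rw [zero_smul, add_zero, CoordinateRing.smul, mul_one]; rfl,
          CoordinateRing.degree_norm_smul_basis, degree_X_sub_C, degree_zero]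
        rfl
      rw [natDegree_eq_of_degree_eq_some hdY, natDegree_eq_of_degree_eq_some hdX]
      simp
    | some x y h =>
      have key : multiplicity (ptIdeal W x y) (CoordinateRing.XIdeal W x₃) +
          (multiplicity (ptIdeal W x y) (ptIdeal W x₁ y₁) +
            multiplicity (ptIdeal W x y) (ptIdeal W x₂ y₂)) =
          multiplicity (ptIdeal W x y) (CoordinateRing.YIdeal W ℓ) +
            multiplicity (ptIdeal W x y) (ptIdeal W x₃ y₃) := by
        rw [← multiplicity_ptIdeal_mul h (ptIdeal_ne_bot _ _) (ptIdeal_ne_bot _ _),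
          ← multiplicity_ptIdeal_mul h
            (by rw [CoordinateRing.XIdeal, Ne, Ideal.span_singleton_eq_bot]; exact hX)
            (mul_ne_zero (ptIdeal_ne_bot _ _) (ptIdeal_ne_bot _ _)),
          ← multiplicity_ptIdeal_mul h
            (by rw [CoordinateRing.YIdeal, Ne, Ideal.span_singleton_eq_bot]; exact hY)
            (ptIdeal_ne_bot _ _)]
        exact congr_arg _ (CoordinateRing.XYIdeal_mul_XYIdeal h₁.left h₂.left hxy)
      have key' := congr_arg (Nat.cast : ℕ → ℤ) key
      simp only [Nat.cast_add, multiplicity_ptIdeal_ptIdeal h h₁,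
        multiplicity_ptIdeal_ptIdeal h h₂] at key'
      have h3 := multiplicity_ptIdeal_ptIdeal (x' := x₃) (y' := y₃) h (nonsingular_add h₁ h₂ hxy)
      rw [ordAt_some_toFF h hY, ordAt_some_toFF h hX]
      simp only [Finsupp.sub_apply, Finsupp.add_apply]
      rw [Finsupp.single_apply (a := (0 : W.Point)), if_neg (Point.some_ne_zero h).symm]
      change ((multiplicity (ptIdeal W x y) (CoordinateRing.YIdeal W ℓ) : ℕ) : ℤ) -
        ((multiplicity (ptIdeal W x y) (CoordinateRing.XIdeal W x₃) : ℕ) : ℤ) = _
      linarith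

omit [DecidableEq F] in
lemma finite_support_ordAt (f : W.FunctionField) : {P : W.Point | ordAt P f ≠ 0}.Finite := by
  classical
  rcases eq_or_ne f 0 with rfl | hf
  · simp [ordAt]
  let g : HeightOneSpectrum W.CoordinateRing → W.Point := fun v =>
    .some _ _ (exists_eq_ptPrime v).choose_spec.choose_spec.choose
  refine (((HeightOneSpectrum.Support.finite W.CoordinateRing f).union
    (HeightOneSpectrum.Support.finite W.CoordinateRing f⁻¹)).image g |>.union
      (Set.finite_singleton (0 : W.Point))).subset fun P hP => ?_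
  cases P with
  | zero => exact Or.inr rfl
  | some x y h =>
    refine Or.inl ⟨ptPrime h, ?_, ?_⟩
    · have h1 : placeVal (.some x y h) f ≠ 1 := fun h1 => hP (by simp [ordAt, h1])
      rcases lt_or_gt_of_ne h1 with h2 | h2
      · right
        show 1 < (ptPrime h).valuation W.FunctionField f⁻¹
        rw [map_inv₀]
        exact (one_lt_inv₀ (zero_lt_iff.mpr ((Valuation.ne_zero_iff _).mpr hf))).mpr h2
      · exact Or.inl h2
    · obtain ⟨x', y', h'', he⟩ : ∃ (x' y' : F) (h' : W.Nonsingular x' y'),
          g (ptPrime h) = .some x' y' h' ∧ ptPrime h = ptPrime h' :=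
        ⟨_, _, _, rfl, (exists_eq_ptPrime (ptPrime h)).choose_spec.choose_spec.choose_spec⟩
      obtain ⟨rfl, rfl⟩ := ptIdeal_eq_imp h (congr_arg HeightOneSpectrum.asIdeal he.2)
      exact he.1

/-- The divisor of a function. -/
noncomputable def divOf (f : W.FunctionField) : W.Point →₀ ℤ :=
  Finsupp.ofSupportFinite (fun P => ordAt P f) (finite_support_ordAt f)

omit [DecidableEq F] in
/-- The coefficients of the divisor of `f` are its orders. -/
@[simp] lemma divOf_apply (f : W.FunctionField) (P : W.Point) : divOf f P = ordAt P f := rfl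

/-- The subgroup of principal divisors. -/
noncomputable def princ (W : Affine F) [W.IsElliptic] : AddSubgroup (W.Point →₀ ℤ) where
  carrier := {D | ∃ f : W.FunctionField, f ≠ 0 ∧ divOf f = D}
  zero_mem' := ⟨1, one_ne_zero, Finsupp.ext fun P => by simp⟩
  add_mem' := by
    rintro D E ⟨f, hf, rfl⟩ ⟨g, hg, rfl⟩
    exact ⟨f * g, mul_ne_zero hf hg, Finsupp.ext fun P => by simp [ordAt_mul P hf hg]⟩
  neg_mem' := by
    rintro D ⟨f, hf, rfl⟩
    exact ⟨f⁻¹, inv_ne_zero hf, Finsupp.ext fun P => by simp [ordAt_inv]⟩

/-- The degree of a divisor. -/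
noncomputable def degD (W : Affine F) : (W.Point →₀ ℤ) →+ ℤ :=
  Finsupp.liftAddHom fun _ => AddMonoidHom.id ℤ

/-- The sum of a divisor in the group law. -/
noncomputable def sumD (W : Affine F) : (W.Point →₀ ℤ) →+ W.Point :=
  Finsupp.liftAddHom fun P => zmultiplesHom W.Point P

omit [IsAlgClosed F] [W.IsElliptic] [DecidableEq F] in
/-- The degree of a one-point divisor. -/
@[simp] lemma degD_single (P : W.Point) (n : ℤ) : degD W (Finsupp.single P n) = n := by
  simp [degD]

omit [IsAlgClosed F] [W.IsElliptic] in
/-- The sum of a one-point divisor. -/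
@[simp] lemma sumD_single (P : W.Point) (n : ℤ) : sumD W (Finsupp.single P n) = n • P := by
  simp [sumD]

lemma sub_normalForm_mem_princ (D : W.Point →₀ ℤ) :
    D - (Finsupp.single 0 (degD W D) + (Finsupp.single (sumD W D) (1 : ℤ) -
      Finsupp.single 0 1)) ∈ princ W := by
  let q := QuotientAddGroup.mk' (princ W)
  let φ : W.Point →+ (W.Point →₀ ℤ) ⧸ princ W :=
    AddMonoidHom.mk' (fun P => q (Finsupp.single P 1 - Finsupp.single 0 1)) fun A B => by
      obtain ⟨f, hf, hd⟩ := exists_miller A B
      rw [← map_add]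
      refine ((QuotientAddGroup.eq_iff_sub_mem).mpr ?_).symm
      refine ⟨f, hf, Finsupp.ext fun Q => ?_⟩
      rw [divOf_apply, hd Q]
      simp only [Finsupp.sub_apply, Finsupp.add_apply]
      ring
  suffices h : q D = degD W D • q (Finsupp.single 0 1) + φ (sumD W D) by
    refine QuotientAddGroup.eq_iff_sub_mem.mp (h.trans ?_)
    rw [← map_zsmul, Finsupp.smul_single, smul_eq_mul, mul_one]
    exact (map_add q _ _).symm
  induction D using Finsupp.induction_linear with
  | zero => simp
  | add a b ha hb => simp only [map_add, ha, hb, add_zsmul]; abel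
  | single P n =>
    simp only [degD_single, sumD_single, map_zsmul]
    show q _ = n • q _ + n • q (Finsupp.single P 1 - Finsupp.single 0 1)
    rw [← zsmul_add, ← map_add, add_sub_cancel, ← map_zsmul, Finsupp.smul_single, smul_eq_mul,
      mul_one]

omit [DecidableEq F] in
lemma exists_toFF_eq {f : W.FunctionField}
    (h : ∀ (x y : F) (hh : W.Nonsingular x y), 0 ≤ ordAt (.some x y hh) f) :
    ∃ a : W.CoordinateRing, toFF W a = f := by
  rcases eq_or_ne f 0 with rfl | hf
  · exact ⟨0, map_zero _⟩
  refine HeightOneSpectrum.mem_integers_of_valuation_le_one W.FunctionField f fun v => ?_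
  obtain ⟨x, y, hh, rfl⟩ := exists_eq_ptPrime v
  show placeVal (.some x y hh) f ≤ 1
  rw [placeVal_eq_exp _ hf, ← exp_zero, exp_le_exp]
  exact neg_nonpos.mpr (h x y hh)

omit [DecidableEq F] in
/-- A function without zeros or poles at affine points is constant. -/
lemma exists_cst_eq {f : W.FunctionField} (hf : f ≠ 0)
    (h : ∀ (x y : F) (hh : W.Nonsingular x y), ordAt (.some x y hh) f = 0) :
    ∃ c : F, c ≠ 0 ∧ f = cst W c := by
  obtain ⟨a, rfl⟩ := exists_toFF_eq fun x y hh => (h x y hh).ge
  have ha : a ≠ 0 := by rintro rfl; simp at hf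
  have hu : IsUnit a := by
    by_contra hu
    obtain ⟨m, hm, ham⟩ := Ideal.exists_le_maximal (Ideal.span {a})
      (by rwa [Ne, Ideal.span_singleton_eq_top])
    obtain ⟨x, y, hxy, rfl⟩ := exists_eq_ptIdeal hm
    have hns := equation_iff_nonsingular.mp hxy
    have hlt := (mem_ptIdeal_iff hns a).mp (ham (Ideal.mem_span_singleton_self a))
    rw [placeVal_eq_exp _ (toFF_ne_zero ha), h x y hns, neg_zero, exp_zero] at hlt
    exact lt_irrefl _ hlt
  have hN := natDegree_eq_zero_of_isUnit (hu.map (Algebra.norm F[X]))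
  obtain ⟨p, q, rfl⟩ := CoordinateRing.exists_smul_basis_eq a
  have hd : (Algebra.norm F[X] (p • 1 + q • CoordinateRing.mk W Y)).degree = 0 := by
    rw [degree_eq_natDegree (Algebra.norm_ne_zero_iff.mpr ha), hN]; rfl
  rw [CoordinateRing.degree_norm_smul_basis] at hd
  have hq : q = 0 := by
    by_contra hq
    have := le_max_right (2 • p.degree) (2 • q.degree + 3)
    rw [hd, degree_eq_natDegree hq] at this
    have h2 : ((2 * q.natDegree + 3 : ℕ) : WithBot ℕ) ≤ ((0 : ℕ) : WithBot ℕ) := by
      push_cast; simpa [nsmul_eq_mul] using this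
    rw [Nat.cast_le] at h2
    omega
  subst hq
  rw [degree_zero] at hd
  have hp : p.natDegree = 0 := by
    by_contra hp
    have hp' : p ≠ 0 := by rintro rfl; simp at hp
    have := le_max_left (2 • p.degree) (2 • (⊥ : WithBot ℕ) + 3)
    rw [hd, degree_eq_natDegree hp'] at this
    have h2 : ((2 * p.natDegree : ℕ) : WithBot ℕ) ≤ ((0 : ℕ) : WithBot ℕ) := by
      push_cast; simpa [nsmul_eq_mul] using this
    rw [Nat.cast_le] at h2
    omega
  rw [eq_C_of_natDegree_eq_zero hp] at ha ⊢
  refine ⟨p.coeff 0, fun h0 => ha (by simp [h0]), ?_⟩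
  rw [toFF_smul_basis]; simp

/-- Abel's theorem: a divisor is principal iff its degree and its sum both vanish. -/
theorem mem_princ_iff (D : W.Point →₀ ℤ) : D ∈ princ W ↔ degD W D = 0 ∧ sumD W D = 0 := by
  constructor
  · intro hD
    have h := (princ W).sub_mem hD (sub_normalForm_mem_princ D)
    rw [sub_sub_cancel] at h
    obtain ⟨f, hf, hd⟩ := h
    rcases eq_or_ne (sumD W D) 0 with hs | hs
    · rw [hs, sub_self, add_zero] at hd
      obtain ⟨c, hc, rfl⟩ := exists_cst_eq hf fun x y hh => by
        rw [← divOf_apply, hd, Finsupp.single_apply, if_neg (Point.some_ne_zero hh).symm]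
      have := DFunLike.congr_fun hd (0 : W.Point)
      rw [divOf_apply, ordAt_cst, Finsupp.single_eq_same] at this
      exact ⟨this.symm, hs⟩
    · exfalso
      obtain ⟨a, rfl⟩ := exists_toFF_eq (f := f) fun x y hh => by
        classical
        rw [← divOf_apply, hd, Finsupp.add_apply, Finsupp.sub_apply,
          Finsupp.single_apply (a := (0 : W.Point)), if_neg (Point.some_ne_zero hh).symm,
          Finsupp.single_apply, Finsupp.single_apply, if_neg (Point.some_ne_zero hh).symm]
        split <;> norm_num
      have ha : a ≠ 0 := by rintro rfl; simp at hf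
      generalize hU : sumD W D = U at hs hd
      cases U with
      | zero => exact hs rfl
      | some x y h =>
        classical
        have hspan : Ideal.span {a} = ptIdeal W x y := by
          have hm : multiplicity (ptIdeal W x y) (Ideal.span {a}) = 1 := by
            have := (ordAt_some_toFF h ha).symm
            rw [← divOf_apply, hd] at this
            simpa [Point.some_ne_zero h, (Point.some_ne_zero h).symm, Finsupp.single_apply]
              using this
          obtain ⟨J, hJ⟩ : ptIdeal W x y ∣ Ideal.span {a} :=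
            dvd_of_multiplicity_pos (by omega)
          suffices hJt : J = ⊤ by rw [hJ, hJt, Ideal.mul_top]
          by_contra hJt
          obtain ⟨m, hm', hJm⟩ := Ideal.exists_le_maximal J hJt
          obtain ⟨x', y', hxy', rfl⟩ := exists_eq_ptIdeal hm'
          have h' := equation_iff_nonsingular.mp hxy'
          have hJ0 : J ≠ ⊥ := by
            rintro rfl
            rw [Ideal.mul_bot, Ideal.span_singleton_eq_bot] at hJ
            exact ha hJ
          have hJpos : 0 < multiplicity (ptIdeal W x' y') J :=
            Nat.pos_of_ne_zero fun h0 =>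
              (multiplicity_eq_zero.mp h0) (Ideal.dvd_iff_le.mpr hJm)
          have h1 := ordAt_some_toFF h' ha
          rw [← divOf_apply, hd, hJ, multiplicity_ptIdeal_mul h' (ptIdeal_ne_bot _ _) hJ0,
            Nat.cast_add, multiplicity_ptIdeal_ptIdeal h' h] at h1
          simp [Point.some_ne_zero h', Finsupp.single_apply] at h1
          omega
        apply a.natDegree_norm_ne_one
        rw [← finrank_quotient_span_eq_natDegree_norm (CoordinateRing.basis W) ha, hspan]
        exact (CoordinateRing.quotientXYIdealEquiv (y := C y) (W' := W)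
          h.left).toLinearEquiv.finrank_eq.trans (Module.finrank_self F)
  · rintro ⟨h1, h2⟩
    simpa [h1, h2] using sub_normalForm_mem_princ D

end Fermat.Agent.WeilPairing
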