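import Fermat.Agent.WeilPairing.Pairing

/-!
# Equivariance of the Weil pairing under automorphisms of the base field
-/

set_option autoImplicit false

open WeierstrassCurve WeierstrassCurve.Affine Polynomial IsDedekindDomain WithZero
open scoped Polynomial.Bivariate nonZeroDivisors

namespace Fermat.Agent.WeilPairing

universe u

variable {F : Type u} [Field F] {W : Affine F} [IsAlgClosed F] [W.IsElliptic]

/-- `σ` fixes the coefficients of `W`. -/
def FixesCoeffs (W : Affine F) (σ : F ≃+* F) : Prop :=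
  σ W.a₁ = W.a₁ ∧ σ W.a₂ = W.a₂ ∧ σ W.a₃ = W.a₃ ∧ σ W.a₄ = W.a₄ ∧ σ W.a₆ = W.a₆

omit [IsAlgClosed F] [W.IsElliptic] in
/-- If `σ` fixes the coefficients, so does `σ⁻¹`. -/
lemma FixesCoeffs.symm {σ : F ≃+* F} (h : FixesCoeffs W σ) : FixesCoeffs W σ.symm := by
  obtain ⟨h1, h2, h3, h4, h6⟩ := h
  exact ⟨σ.symm_apply_eq.mpr h1.symm, σ.symm_apply_eq.mpr h2.symm, σ.symm_apply_eq.mpr h3.symm,
    σ.symm_apply_eq.mpr h4.symm, σ.symm_apply_eq.mpr h6.symm⟩

omit [IsAlgClosed F] [W.IsElliptic] in
lemma semi_equation {σ : F ≃+* F} (h : FixesCoeffs W σ) :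
    ygen W ^ 2 + ((cst W).comp (σ : F →+* F)) W.a₁ * xgen W * ygen W +
        ((cst W).comp (σ : F →+* F)) W.a₃ * ygen W =
      xgen W ^ 3 + ((cst W).comp (σ : F →+* F)) W.a₂ * xgen W ^ 2 +
        ((cst W).comp (σ : F →+* F)) W.a₄ * xgen W + ((cst W).comp (σ : F →+* F)) W.a₆ := by
  obtain ⟨h1, h2, h3, h4, h6⟩ := h
  simp only [RingHom.coe_comp, Function.comp_apply, RingHom.coe_coe, h1, h2, h3, h4, h6]
  exact xgen_ygen_equation (W := W)

/-- The automorphism `σ` on coefficients, on the coordinate ring. -/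
noncomputable def semiA {σ : F ≃+* F} (h : FixesCoeffs W σ) :
    W.CoordinateRing →+* W.FunctionField :=
  coordHom ((cst W).comp (σ : F →+* F)) (xgen W) (ygen W) (semi_equation h)

lemma semiA_injective {σ : F ≃+* F} (h : FixesCoeffs W σ) : Function.Injective (semiA h) :=
  coordHom_injective _ _ _ _ fun a _ _ he => xgen_ne_cst (σ a) he.1

/-- The automorphism `σ` on coefficients, on the function field. -/
noncomputable def semiHom {σ : F ≃+* F} (h : FixesCoeffs W σ) :
    W.FunctionField →+* W.FunctionField :=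
  IsFractionRing.lift (semiA_injective h)

lemma semiHom_cst {σ : F ≃+* F} (h : FixesCoeffs W σ) (c : F) :
    semiHom h (cst W c) = cst W (σ c) := by
  rw [cst_eq, semiHom, IsFractionRing.lift_algebraMap, semiA, coordHom_mk_C, eval₂_C,
    RingHom.comp_apply, RingHom.coe_coe]

lemma semiHom_xgen {σ : F ≃+* F} (h : FixesCoeffs W σ) : semiHom h (xgen W) = xgen W := by
  show IsFractionRing.lift (semiA_injective h) (toFF W _) = _
  rw [IsFractionRing.lift_algebraMap, semiA, coordHom_mk_C, eval₂_X]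

lemma semiHom_ygen {σ : F ≃+* F} (h : FixesCoeffs W σ) : semiHom h (ygen W) = ygen W := by
  show IsFractionRing.lift (semiA_injective h) (toFF W _) = _
  rw [IsFractionRing.lift_algebraMap, semiA, coordHom_mk_Y]

lemma semiHom_surjective {σ : F ≃+* F} (h : FixesCoeffs W σ) : Function.Surjective (semiHom h) :=
  fun f => ⟨semiHom h.symm f, by
    have : (semiHom h).comp (semiHom h.symm) = RingHom.id _ :=
      functionField_hom_ext (fun c => by simp [semiHom_cst])
        (by simp [semiHom_xgen]) (by simp [semiHom_ygen])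
    exact DFunLike.congr_fun this f⟩

variable [DecidableEq F]

/-- `ψ` is the map induced by `σ` on points. -/
def IsPointMap (σ : F ≃+* F) (ψ : W.Point ≃+ W.Point) : Prop :=
  ∀ (x y : F) (h : W.Nonsingular x y),
    ∃ h' : W.Nonsingular (σ x) (σ y), ψ (.some x y h) = .some (σ x) (σ y) h'

variable {σ : F ≃+* F} {ψ : W.Point ≃+ W.Point}

lemma comap_semiHom (h : FixesCoeffs W σ) (hψ : IsPointMap σ ψ) (P : W.Point) :
    (placeVal (ψ P)).comap (semiHom h) = placeVal P := by
  obtain ⟨Q, hQ⟩ := exists_eq_placeVal_comap (semiHom h) (semiHom_surjective h)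
    (fun c hc => ⟨σ c, (map_ne_zero σ).mpr hc, semiHom_cst h c⟩) (ψ P)
  have hQ' : ∀ f, placeVal Q f = placeVal (ψ P) (semiHom h f) := fun f => by rw [← hQ]; rfl
  rw [hQ]
  congr 1
  cases P with
  | zero =>
    cases Q with
    | zero => rfl
    | some x y hxy =>
      exfalso
      have h1 := placeVal_some_xgen_le hxy
      rw [hQ', semiHom_xgen, show ψ Point.zero = 0 from map_zero ψ, placeVal_zero_xgen, ← exp_zero,
        exp_le_exp] at h1
      norm_num at h1
  | some x y hxy =>
    obtain ⟨h', he⟩ := hψ x y hxy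
    obtain ⟨_, hres⟩ := eq_some_of_lt_one (P := Q) (x := x) (y := y)
      (by rw [hQ', map_sub, semiHom_cst, semiHom_xgen, he]; exact placeVal_some_xgen h')
      (by rw [hQ', map_sub, semiHom_cst, semiHom_ygen, he]; exact placeVal_some_ygen h')
    exact hres

lemma ordAt_semiHom (h : FixesCoeffs W σ) (hψ : IsPointMap σ ψ) (P : W.Point)
    (f : W.FunctionField) : ordAt (ψ P) (semiHom h f) = ordAt P f := by
  rw [ordAt, ordAt, ← comap_semiHom h hψ P]
  rfl

lemma divOf_semiHom (h : FixesCoeffs W σ) (hψ : IsPointMap σ ψ) (f : W.FunctionField) :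
    divOf (semiHom h f) = (divOf f).mapDomain ψ := by
  refine Finsupp.ext fun P => ?_
  obtain ⟨Q, rfl⟩ := ψ.surjective P
  rw [divOf_apply, ordAt_semiHom h hψ, Finsupp.mapDomain_apply ψ.injective, divOf_apply]

lemma tr_formula {a b : F} (hS : W.Nonsingular a b) :
    trX (.some a b hS) = ((ygen W - cst W b) / (xgen W - cst W a)) ^ 2 +
        cst W W.a₁ * ((ygen W - cst W b) / (xgen W - cst W a)) - cst W W.a₂ - xgen W - cst W a ∧
      trY (.some a b hS) = -((ygen W - cst W b) / (xgen W - cst W a) *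
          (trX (.some a b hS) - xgen W) + ygen W) - cst W W.a₁ * trX (.some a b hS) -
          cst W W.a₃ := by
  classical
  have h0 : genPt W + constPt W (.some a b hS) = _ := Point.add_of_X_ne (xgen_ne_cst a)
  rw [genPt_add_constPt] at h0
  obtain ⟨hx, hy⟩ := Point.some.inj h0
  rw [slope_of_X_ne (xgen_ne_cst a)] at hx hy
  have hx' : trX (.some a b hS) = _ := hx
  constructor
  · rw [hx]; rfl
  · rw [hy, hx]; rfl

lemma semiHom_transHom (h : FixesCoeffs W σ) (hψ : IsPointMap σ ψ) (S : W.Point)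
    (f : W.FunctionField) : semiHom h (transHom S f) = transHom (ψ S) (semiHom h f) := by
  suffices heq : (semiHom h).comp (transHom S).toRingHom =
      (transHom (ψ S)).toRingHom.comp (semiHom h) from DFunLike.congr_fun heq f
  refine functionField_hom_ext (fun c => ?_) ?_ ?_
  · show semiHom h (transHom S (cst W c)) = transHom (ψ S) (semiHom h (cst W c))
    rw [AlgHom.commutes, semiHom_cst, AlgHom.commutes]
  all_goals (
    cases S with
    | zero => simp [← Point.zero_def, transHom_zero_apply, semiHom_xgen, semiHom_ygen]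
    | some a b hS =>
      obtain ⟨h', he⟩ := hψ a b hS
      obtain ⟨h1, h2, h3, -, -⟩ := id h
      simp [he, semiHom_xgen, semiHom_ygen, transHom_xgen, transHom_ygen, semiHom_cst,
        (tr_formula hS).1, (tr_formula hS).2, (tr_formula h').1, (tr_formula h').2, h1, h2, h3])

variable {n : ℕ}

omit [IsAlgClosed F] [W.IsElliptic] in
lemma map_mem_tor (ψ : W.Point ≃+ W.Point) (S : Tor W n) : ψ S ∈ Tor W n := by
  rw [mem_tor, ← map_nsmul, nsmul_tor, map_zero]

/-- The map induced on `E[n]`. -/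
def torMap (ψ : W.Point ≃+ W.Point) (S : Tor W n) : Tor W n := ⟨ψ S, map_mem_tor ψ S⟩

omit [IsAlgClosed F] [W.IsElliptic] in
lemma torMap_bijective [Fintype (Tor W n)] (ψ : W.Point ≃+ W.Point) :
    Function.Bijective (torMap (n := n) ψ) :=
  Finite.injective_iff_bijective.mp fun _ _ h =>
    Subtype.ext (ψ.injective (congr_arg Subtype.val h))

omit [IsAlgClosed F] [W.IsElliptic] in
lemma mapDomain_orbitPt [Fintype (Tor W n)] (ψ : W.Point ≃+ W.Point) (U : W.Point) :
    (orbitPt W n U).mapDomain ψ = orbitPt W n (ψ U) := by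
  rw [orbitPt, orbitPt, Finsupp.mapDomain_finsetSum]
  exact Fintype.sum_bijective (torMap ψ) (torMap_bijective ψ) _ _ fun S => by
    rw [Finsupp.mapDomain_single, map_add]; rfl

/-- The Weil pairing commutes with automorphisms fixing the coefficients of `W`. -/
theorem HasChar.galois [Fintype (Tor W n)] (h : FixesCoeffs W σ) (hψ : IsPointMap σ ψ)
    {U : W.Point} {χ χ' : Tor W n → F} (hU : HasChar W n U χ) (hU' : HasChar W n (ψ U) χ')
    (S : Tor W n) : χ' (torMap ψ S) = σ (χ S) := by
  obtain ⟨g, hg, hd, hχ⟩ := hU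
  have hg' : semiHom h g ≠ 0 := (_root_.map_ne_zero _).mpr hg
  obtain ⟨τ, hτ⟩ : ∃ τ : Tor W n → Tor W n, ∀ T, τ (torMap ψ T) = T :=
    ⟨_, (Equiv.ofBijective _ (torMap_bijective ψ)).symm_apply_apply⟩
  have hnew : HasChar W n (ψ U) fun T => σ (χ (τ T)) := by
    refine ⟨semiHom h g, hg', ?_, fun T => ?_⟩
    · rw [divOf_semiHom h hψ, hd, Finsupp.mapDomain_sub, mapDomain_orbitPt, mapDomain_orbitPt,
        map_zero]
    · obtain ⟨T, rfl⟩ := (torMap_bijective ψ).2 T
      have := congr_arg (semiHom h) (hχ T)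
      rw [semiHom_transHom h hψ, map_mul, semiHom_cst] at this
      simp only [hτ]
      exact this
  rw [hU'.unique hnew rfl]
  simp only [hτ]

end Fermat.Agent.WeilPairing
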