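import Fermat.Agent.WeilPairing.Translate
import Mathlib.NumberTheory.LegendreSymbol.AddCharacter
import Mathlib.RingTheory.RootsOfUnity.AlgebraicallyClosed
import Mathlib.LinearAlgebra.LinearIndependent.Basic

/-!
# The Weil pairing on `E[n]`

For `U` with `n • U ∈ E[n]` a function `g` with divisor `orbit U - orbit 0` (orbits under `E[n]`)
is an eigenfunction for translations by `E[n]`; its character is the pairing with `n • U`.
-/

set_option autoImplicit false

open WeierstrassCurve WeierstrassCurve.Affine Polynomial IsDedekindDomain WithZero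
open scoped Polynomial.Bivariate nonZeroDivisors

namespace Fermat.Agent.WeilPairing

universe u

variable {F : Type u} [Field F] [DecidableEq F] {W : Affine F}

/-- The `n`-torsion. -/
abbrev Tor (W : Affine F) (n : ℕ) : Submodule ℤ W.Point := Submodule.torsionBy ℤ W.Point n

variable {n : ℕ}

/-- `Tor W n` is the kernel of multiplication by `n`. -/
lemma mem_tor {P : W.Point} : P ∈ Tor W n ↔ n • P = 0 := by
  rw [Submodule.mem_torsionBy_iff, natCast_zsmul]

/-- An `n`-torsion point is killed by `n`. -/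
lemma nsmul_tor (S : Tor W n) : n • (S : W.Point) = 0 := mem_tor.mp S.2

/-- The sum of the `E[n]`-translates of a point. -/
noncomputable def orbitPt (W : Affine F) (n : ℕ) [Fintype (Tor W n)] (P : W.Point) :
    W.Point →₀ ℤ :=
  ∑ S : Tor W n, Finsupp.single (P + S) 1

/-- The sum of the `E[n]`-translates of a divisor. -/
noncomputable def orbitDiv (W : Affine F) (n : ℕ) [Fintype (Tor W n)] :
    (W.Point →₀ ℤ) →+ (W.Point →₀ ℤ) :=
  Finsupp.liftAddHom fun P => zmultiplesHom _ (orbitPt W n P)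

variable [Fintype (Tor W n)]

lemma orbitDiv_single (P : W.Point) (m : ℤ) :
    orbitDiv W n (Finsupp.single P m) = m • orbitPt W n P := by
  simp [orbitDiv]

lemma orbitDiv_single_one (P : W.Point) : orbitDiv W n (Finsupp.single P 1) = orbitPt W n P := by
  rw [orbitDiv_single, one_zsmul]

lemma orbitPt_add_tor (P : W.Point) (S : Tor W n) : orbitPt W n (P + S) = orbitPt W n P :=
  Fintype.sum_equiv (Equiv.addLeft S) _ _ fun T => by simp [add_assoc]

lemma orbitPt_eq_of_nsmul {P Q : W.Point} (h : n • P = n • Q) :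
    orbitPt W n P = orbitPt W n Q := by
  have hm : P - Q ∈ Tor W n := by rw [mem_tor, nsmul_sub, h, sub_self]
  have := orbitPt_add_tor (n := n) Q ⟨P - Q, hm⟩
  simpa using this

lemma degD_orbitPt (P : W.Point) : degD W (orbitPt W n P) = Fintype.card (Tor W n) := by
  simp [orbitPt]

lemma sumD_orbitPt (P : W.Point) :
    sumD W (orbitPt W n P) = Fintype.card (Tor W n) • P + ∑ S : Tor W n, (S : W.Point) := by
  simp [orbitPt, Finset.sum_add_distrib]

lemma degD_orbitDiv (D : W.Point →₀ ℤ) :
    degD W (orbitDiv W n D) = Fintype.card (Tor W n) * degD W D := by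
  induction D using Finsupp.induction_linear with
  | zero => simp
  | add a b ha hb => simp [ha, hb, mul_add]
  | single P m =>
    rw [orbitDiv_single, map_zsmul, degD_orbitPt, degD_single, smul_eq_mul, mul_comm]

lemma sumD_orbitDiv (D : W.Point →₀ ℤ) :
    sumD W (orbitDiv W n D) =
      Fintype.card (Tor W n) • sumD W D + degD W D • ∑ S : Tor W n, (S : W.Point) := by
  induction D using Finsupp.induction_linear with
  | zero => simp
  | add a b ha hb => simp only [map_add, ha, hb, nsmul_add, add_zsmul]; abel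
  | single P m =>
    rw [orbitDiv_single, map_zsmul, sumD_orbitPt, sumD_single, degD_single, zsmul_add, smul_comm]

lemma orbitDiv_apply (D : W.Point →₀ ℤ) (P : W.Point) :
    orbitDiv W n D P = ∑ S : Tor W n, D (P - S) := by
  induction D using Finsupp.induction_linear with
  | zero => simp
  | add a b ha hb => simp [ha, hb, Finset.sum_add_distrib]
  | single Q m =>
    rw [orbitDiv_single, Finsupp.smul_apply, orbitPt, Finsupp.finsetSum_apply, Finset.smul_sum]
    refine Finset.sum_congr rfl fun S _ => ?_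
    classical
    simp only [Finsupp.single_apply, eq_sub_iff_add_eq]
    split <;> simp

lemma orbitDiv_mapDomain_sub (D : W.Point →₀ ℤ) (Q : W.Point) :
    (orbitDiv W n D).mapDomain (· - Q) = orbitDiv W n (D.mapDomain (· - Q)) := by
  induction D using Finsupp.induction_linear with
  | zero => simp
  | add a b ha hb => simp [Finsupp.mapDomain_add, ha, hb]
  | single P m =>
    rw [Finsupp.mapDomain_single, orbitDiv_single, orbitDiv_single, Finsupp.mapDomain_smul,
      orbitPt, orbitPt, Finsupp.mapDomain_finsetSum]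
    congr 1
    refine Finset.sum_congr rfl fun S _ => ?_
    rw [Finsupp.mapDomain_single, sub_add_eq_add_sub]

variable [IsAlgClosed F] [W.IsElliptic]

omit [Fintype (Tor W n)] in
lemma divOf_transHom (Q : W.Point) (f : W.FunctionField) :
    divOf (transHom Q f) = (divOf f).mapDomain (· - Q) := by
  refine Finsupp.ext fun P => ?_
  have : P = (P + Q) - Q := (add_sub_cancel_right P Q).symm
  rw [divOf_apply, ordAt_transHom]
  conv_rhs => rw [this, Finsupp.mapDomain_apply (sub_left_injective) (divOf f) (P + Q)]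
  rfl

omit [DecidableEq F] [Fintype (Tor W n)] in
lemma divOf_mul {f g : W.FunctionField} (hf : f ≠ 0) (hg : g ≠ 0) :
    divOf (f * g) = divOf f + divOf g :=
  Finsupp.ext fun P => by simp [ordAt_mul P hf hg]

omit [DecidableEq F] [Fintype (Tor W n)] in
lemma divOf_prod {ι : Type*} (s : Finset ι) (f : ι → W.FunctionField) (hf : ∀ i ∈ s, f i ≠ 0) :
    divOf (∏ i ∈ s, f i) = ∑ i ∈ s, divOf (f i) :=
  Finsupp.ext fun P => by simp [ordAt_prod P s f hf, Finsupp.finsetSum_apply]

omit [DecidableEq F] [Fintype (Tor W n)] in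
lemma exists_cst_mul {f g : W.FunctionField} (hf : f ≠ 0) (hg : g ≠ 0) (h : divOf f = divOf g) :
    ∃ c : F, c ≠ 0 ∧ f = cst W c * g := by
  obtain ⟨c, hc, he⟩ := exists_cst_eq (div_ne_zero hf hg) fun x y hh => by
    rw [ordAt_div _ hf hg, ← divOf_apply, ← divOf_apply, h, sub_self]
  exact ⟨c, hc, (div_eq_iff hg).mp he⟩

/-- Translations by `E[n]` multiply some function with divisor `orbit U - orbit 0` by `χ`. -/
def HasChar (W : Affine F) [W.IsElliptic] (n : ℕ) [Fintype (Tor W n)]
    (U : W.Point) (χ : Tor W n → F) : Prop :=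
  ∃ g : W.FunctionField, g ≠ 0 ∧ divOf g = orbitPt W n U - orbitPt W n 0 ∧
    ∀ S : Tor W n, transHom (S : W.Point) g = cst W (χ S) * g

/-- A point `U` with `n • U ∈ E[n]` has a character of `E[n]`. -/
lemma exists_hasChar (hcard : Fintype.card (Tor W n) = n ^ 2) {U : W.Point}
    (hU : n • U ∈ Tor W n) : ∃ χ, HasChar W n U χ := by
  obtain ⟨g, hg, hd⟩ : orbitPt W n U - orbitPt W n 0 ∈ princ W := by
    refine (mem_princ_iff _).mpr ⟨by simp [degD_orbitPt], ?_⟩
    rw [map_sub, sumD_orbitPt, sumD_orbitPt, hcard, sq, mul_nsmul, nsmul_zero, mem_tor.mp hU]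
    simp
  have : ∀ S : Tor W n, ∃ c : F, c ≠ 0 ∧ transHom (S : W.Point) g = cst W c * g := fun S => by
    refine exists_cst_mul (transHom_ne_zero _ hg) hg ?_
    rw [divOf_transHom, hd, ← orbitDiv_single_one, ← orbitDiv_single_one, ← map_sub,
      orbitDiv_mapDomain_sub, Finsupp.mapDomain_sub, Finsupp.mapDomain_single,
      Finsupp.mapDomain_single, map_sub, map_sub, orbitDiv_single_one, orbitDiv_single_one,
      orbitDiv_single_one, orbitDiv_single_one,
      orbitPt_eq_of_nsmul (P := U - (S : W.Point)) (Q := U)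
        (by rw [nsmul_sub, nsmul_tor, sub_zero]),
      orbitPt_eq_of_nsmul (P := 0 - (S : W.Point)) (Q := 0)
        (by rw [nsmul_sub, nsmul_tor, sub_zero])]
  choose χ _ hχ using this
  exact ⟨χ, g, hg, hd, hχ⟩

/-- The invariant function attached to `h`. -/
noncomputable def invProd (n : ℕ) [Fintype (Tor W n)] (h : W.FunctionField) : W.FunctionField :=
  ∏ S : Tor W n, transHom (S : W.Point) h

lemma invProd_ne_zero {h : W.FunctionField} (hh : h ≠ 0) : invProd n h ≠ 0 :=
  Finset.prod_ne_zero_iff.mpr fun _ _ => transHom_ne_zero _ hh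

lemma transHom_invProd (h : W.FunctionField) (S : Tor W n) :
    transHom (S : W.Point) (invProd n h) = invProd n h := by
  rw [invProd, map_prod]
  exact Fintype.prod_equiv (Equiv.addLeft S) _ _ fun T => by
    rw [transHom_transHom]; rfl

lemma divOf_invProd {h : W.FunctionField} (hh : h ≠ 0) :
    divOf (invProd n h) = orbitDiv W n (divOf h) := by
  rw [invProd, divOf_prod _ _ fun _ _ => transHom_ne_zero _ hh]
  refine Finsupp.ext fun P => ?_
  rw [orbitDiv_apply, Finsupp.finsetSum_apply]
  refine Fintype.sum_equiv (Equiv.neg (Tor W n)) _ _ fun S => ?_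
  simp [divOf_apply, ordAt_transHom]

/-- The character depends only on `n • U`. -/
lemma HasChar.unique {U U' : W.Point} {χ χ' : Tor W n → F} (h : HasChar W n U χ)
    (h' : HasChar W n U' χ') (he : n • U = n • U') : χ = χ' := by
  obtain ⟨g, hg, hd, hχ⟩ := h
  obtain ⟨g', hg', hd', hχ'⟩ := h'
  obtain ⟨c, hc, rfl⟩ := exists_cst_mul hg hg' (by rw [hd, hd', orbitPt_eq_of_nsmul he])
  funext S
  have h1 := hχ S
  rw [map_mul, AlgHom.commutes, hχ' S, mul_left_comm] at h1
  exact (cst W).injective (mul_right_cancel₀ hg h1).symm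

/-- The character takes nonzero values. -/
lemma HasChar.ne_zero {U : W.Point} {χ : Tor W n → F} (h : HasChar W n U χ) (S : Tor W n) :
    χ S ≠ 0 := by
  obtain ⟨g, hg, hd, hχ⟩ := h
  intro h0
  exact transHom_ne_zero (S : W.Point) hg (by rw [hχ S, h0, map_zero, zero_mul])

lemma HasChar.char_add {U : W.Point} {χ : Tor W n → F} (h : HasChar W n U χ) (S T : Tor W n) :
    χ (S + T) = χ S * χ T := by
  obtain ⟨g, hg, hd, hχ⟩ := h
  apply (cst W).injective
  refine mul_right_cancel₀ hg ?_
  rw [← hχ, Submodule.coe_add, ← transHom_transHom, hχ T, map_mul, AlgHom.commutes, hχ S,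
    map_mul]
  ring

lemma hasChar_zero : HasChar W n (0 : W.Point) fun _ => 1 :=
  ⟨1, one_ne_zero, by ext P; simp, fun S => by simp⟩

/-- The character is multiplicative in `U`. -/
lemma HasChar.mul {U V : W.Point} {χ ψ : Tor W n → F} (h : HasChar W n U χ)
    (h' : HasChar W n V ψ) : HasChar W n (U + V) fun S => χ S * ψ S := by
  obtain ⟨g, hg, hd, hχ⟩ := h
  obtain ⟨g', hg', hd', hψ⟩ := h'
  obtain ⟨f, hf, hfd⟩ : Finsupp.single U (1 : ℤ) + Finsupp.single V 1 -
      Finsupp.single (U + V) 1 - Finsupp.single 0 1 ∈ princ W :=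
    (mem_princ_iff _).mpr ⟨by simp, by simp⟩
  have hH := invProd_ne_zero (n := n) hf
  refine ⟨g * g' * (invProd n f)⁻¹, mul_ne_zero (mul_ne_zero hg hg') (inv_ne_zero hH), ?_,
    fun S => ?_⟩
  · have : divOf (invProd n f)⁻¹ = -divOf (invProd n f) :=
      Finsupp.ext fun P => by simp [ordAt_inv]
    rw [divOf_mul (mul_ne_zero hg hg') (inv_ne_zero hH), divOf_mul hg hg', this, hd, hd',
      divOf_invProd hf, hfd]
    simp only [map_add, map_sub, orbitDiv_single_one]
    abel
  · rw [map_mul, map_mul, map_inv₀, hχ S, hψ S, transHom_invProd, map_mul]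
    ring

/-- The character of `k • U` is the `k`-th power. -/
lemma HasChar.nsmul {U : W.Point} {χ : Tor W n → F} (h : HasChar W n U χ) :
    ∀ k : ℕ, HasChar W n (k • U) fun S => χ S ^ k
  | 0 => by simpa using hasChar_zero
  | k + 1 => by
    rw [succ_nsmul]
    simpa [pow_succ] using (h.nsmul k).mul h

lemma HasChar.apply_self {U : W.Point} {χ : Tor W n → F} (h : HasChar W n U χ)
    (hU : n • U ∈ Tor W n) : χ ⟨n • U, hU⟩ = 1 := by
  obtain ⟨g, hg, hd, hχ⟩ := h
  set t : ℕ → W.FunctionField := fun i => transHom (i • U) g with ht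
  have htne : ∀ i, t i ≠ 0 := fun i => transHom_ne_zero _ hg
  set u := ∏ i ∈ Finset.range n, t i with hu
  have hune : u ≠ 0 := Finset.prod_ne_zero_iff.mpr fun i _ => htne i
  have hdiv : divOf u = 0 := by
    rw [hu, divOf_prod _ _ fun i _ => htne i]
    have h1 : ∀ i : ℕ, divOf (t i) =
        orbitPt W n (U - i • U) - orbitPt W n (U - (i + 1) • U) := fun i => by
      rw [ht, divOf_transHom, hd, ← orbitDiv_single_one, ← orbitDiv_single_one, ← map_sub,
        orbitDiv_mapDomain_sub, Finsupp.mapDomain_sub, Finsupp.mapDomain_single,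
        Finsupp.mapDomain_single, map_sub, orbitDiv_single_one, orbitDiv_single_one, succ_nsmul]
      congr 2; abel
    rw [Finset.sum_congr rfl fun i _ => h1 i,
      Finset.sum_range_sub' (fun i : ℕ => orbitPt W n (U - i • U))]
    rw [zero_nsmul, sub_zero, sub_eq_zero]
    refine orbitPt_eq_of_nsmul ?_
    rw [nsmul_sub, mem_tor.mp hU, sub_zero]
  obtain ⟨c, -, hcu⟩ := exists_cst_mul hune one_ne_zero (by rw [hdiv]; ext P; simp)
  have hτu : transHom U u = u := by rw [hcu, mul_one, AlgHom.commutes]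
  have hshift : transHom U u = ∏ i ∈ Finset.range n, t (i + 1) := by
    rw [hu, map_prod]
    refine Finset.prod_congr rfl fun i _ => ?_
    rw [ht]; dsimp only
    rw [transHom_transHom, succ_nsmul']
  have h2 : (∏ i ∈ Finset.range n, t (i + 1)) * t 0 = u * t n := by
    rw [← Finset.prod_range_succ', Finset.prod_range_succ]
  rw [← hshift, hτu] at h2
  have h3 := mul_left_cancel₀ hune h2
  have h4 := hχ ⟨n • U, hU⟩
  rw [show transHom ((⟨n • U, hU⟩ : Tor W n) : W.Point) g = t n from rfl, ← h3, ht] at h4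
  dsimp only at h4
  rw [zero_nsmul, transHom_zero_apply] at h4
  exact (cst W).injective (((mul_eq_right₀ hg).mp h4.symm).trans (map_one _).symm)

/-- Every character of `E[n]` occurs. -/
lemma exists_hasChar_of_character (hn : n ≠ 0) (hcard : Fintype.card (Tor W n) = n ^ 2)
    (χ : Tor W n → F) (h0 : ∀ S, χ S ≠ 0) (hmul : ∀ S T, χ (S + T) = χ S * χ T) :
    ∃ U : W.Point, n • U ∈ Tor W n ∧ HasChar W n U χ := by
  classical
  have hinj : Function.Injective fun S : Tor W n =>
      ((transHom (S : W.Point)).toRingHom.toMonoidHom : W.FunctionField →* W.FunctionField) :=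
    fun S T h => Subtype.ext (transHom_injective_left (AlgHom.ext fun f => DFunLike.congr_fun h f))
  have hind := (linearIndependent_monoidHom W.FunctionField W.FunctionField).comp _ hinj
  obtain ⟨θ, hθ⟩ : ∃ θ : W.FunctionField,
      ∑ S : Tor W n, cst W (χ S)⁻¹ * transHom (S : W.Point) θ ≠ 0 := by
    by_contra hcon
    push Not at hcon
    have := Fintype.linearIndependent_iff.mp hind (fun S => cst W (χ S)⁻¹) (funext fun θ => by
      simpa using hcon θ) 0
    exact inv_ne_zero (h0 0) ((cst W).injective (this.trans (map_zero _).symm))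
  set g := ∑ S : Tor W n, cst W (χ S)⁻¹ * transHom (S : W.Point) θ with hg_def
  have heig : ∀ T : Tor W n, transHom (T : W.Point) g = cst W (χ T) * g := fun T => by
    rw [hg_def, map_sum, Finset.mul_sum]
    refine Fintype.sum_equiv (Equiv.addLeft T) _ _ fun S => ?_
    rw [map_mul, AlgHom.commutes, transHom_transHom, Equiv.coe_addLeft, hmul, Submodule.coe_add,
      mul_inv, map_mul, ← mul_assoc, ← mul_assoc, ← map_mul, mul_inv_cancel₀ (h0 T), map_one,
      one_mul]
  have hinv : ∀ (T : Tor W n) (P : W.Point), divOf g (P + T) = divOf g P := fun T P => by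
    rw [divOf_apply, divOf_apply, ← ordAt_transHom, heig,
      ordAt_mul _ ((_root_.map_ne_zero _).mpr (h0 T)) hθ, ordAt_cst, zero_add]
  let r : W.Point → W.Point := fun P =>
    (Quotient.out (QuotientAddGroup.mk P : W.Point ⧸ (Tor W n).toAddSubgroup))
  have hr : ∀ P, r P - P ∈ Tor W n := fun P => by
    have h := QuotientAddGroup.out_eq' (QuotientAddGroup.mk P : W.Point ⧸ (Tor W n).toAddSubgroup)
    rw [QuotientAddGroup.eq_iff_sub_mem] at h
    exact h
  have hr' : ∀ P (S : Tor W n), r (P - S) = r P := fun P S => by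
    show Quotient.out _ = Quotient.out _
    congr 1
    rw [QuotientAddGroup.eq_iff_sub_mem]
    simp
  set D' := (divOf g).filter (fun P => r P = P) with hD'
  have hΩ : orbitDiv W n D' = divOf g := by
    refine Finsupp.ext fun P => ?_
    rw [orbitDiv_apply]
    set S₀ : Tor W n := -⟨r P - P, hr P⟩ with hS₀
    have hP0 : P - (S₀ : W.Point) = r P := by
      rw [hS₀, Submodule.coe_neg, sub_neg_eq_add]; exact add_sub_cancel _ _
    rw [Finset.sum_eq_single S₀]
    · have hrr : r (r P) = r P := (congr_arg r hP0.symm).trans (hr' P S₀)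
      rw [hP0, hD', Finsupp.filter_apply, if_pos hrr]
      have := hinv ⟨r P - P, hr P⟩ P
      rwa [add_sub_cancel] at this
    · intro S _ hS
      rw [hD', Finsupp.filter_apply, if_neg]
      rw [hr', ← hP0]
      intro h
      exact hS (Subtype.ext (sub_right_injective h).symm)
    · simp
  have hg : g ≠ 0 := hθ
  obtain ⟨hdeg, hsum⟩ := (mem_princ_iff (divOf g)).mp ⟨g, hg, rfl⟩
  rw [← hΩ, degD_orbitDiv, hcard] at hdeg
  have hdeg' : degD W D' = 0 :=
    (mul_eq_zero.mp hdeg).resolve_left (by exact_mod_cast pow_ne_zero 2 hn)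
  rw [← hΩ, sumD_orbitDiv, hcard, hdeg', zero_zsmul, add_zero, sq, mul_nsmul] at hsum
  have hU : n • sumD W D' ∈ Tor W n := mem_tor.mpr hsum
  obtain ⟨f, hf, hfd⟩ :
      D' - (Finsupp.single (sumD W D') (1 : ℤ) - Finsupp.single 0 1) ∈ princ W :=
    (mem_princ_iff _).mpr ⟨by simp [hdeg'], by simp⟩
  have hH := invProd_ne_zero (n := n) hf
  refine ⟨_, hU, g / invProd n f, div_ne_zero hg hH, ?_, fun S => ?_⟩
  · refine Finsupp.ext fun P => ?_
    rw [divOf_apply, ordAt_div _ hg hH, ← divOf_apply, ← divOf_apply, divOf_invProd hf, hfd,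
      ← hΩ]
    simp only [map_sub, orbitDiv_single_one, Finsupp.sub_apply]
    ring
  · rw [map_div₀, heig, transHom_invProd, mul_div_assoc]

/-- The character `S ↦ ζ ^ c(S)` of `E[n]` is attached to some point `U`. -/
lemma exists_dual_point (hn : (n : F) ≠ 0) (hcard : Fintype.card (Tor W n) = n ^ 2) {ζ : F}
    (hζ : IsPrimitiveRoot ζ n) (c : Tor W n →+ ZMod n) :
    ∃ (U : W.Point) (χ : Tor W n → F), n • U ∈ Tor W n ∧ HasChar W n U χ ∧
      ∀ S, χ S = ζ ^ (c S).val := by
  have : NeZero (n : F) := ⟨hn⟩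
  have : NeZero n := NeZero.of_neZero_natCast F
  obtain ⟨U, hU, h⟩ := exists_hasChar_of_character (NeZero.ne n) hcard
    (fun S => AddChar.zmodChar n hζ.pow_eq_one (c S))
    (fun S => pow_ne_zero _ (hζ.ne_zero (NeZero.ne n)))
    (fun S T => by rw [map_add, AddChar.map_add_eq_mul])
  exact ⟨U, _, hU, h, fun S => rfl⟩

/-- **Weil pairing**: if `E[n] ≅ (ℤ/n)²` there is a bilinear alternating pairing on `E[n]` whose
value at a basis is a primitive `n`-th root of unity, computed by the characters `HasChar`. -/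
theorem exists_pairing (hn : (n : F) ≠ 0) (b : Tor W n ≃+ ZMod n × ZMod n) :
    ∃ e : Tor W n → Tor W n → F,
      (∀ R S T, e (R + S) T = e R T * e S T) ∧ (∀ R S T, e R (S + T) = e R S * e R T) ∧
      (∀ T, e T T = 1) ∧ IsPrimitiveRoot (e (b.symm (1, 0)) (b.symm (0, 1))) n ∧
      ∀ (T : Tor W n), ∃ U : W.Point, n • U = T ∧ HasChar W n U fun S => e S T := by
  have : NeZero (n : F) := ⟨hn⟩
  have : NeZero n := NeZero.of_neZero_natCast F
  have hcard : Fintype.card (Tor W n) = n ^ 2 := by
    rw [Fintype.card_congr b.toEquiv, Fintype.card_prod, ZMod.card, sq]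
  obtain ⟨ζ, hζ⟩ := HasEnoughRootsOfUnity.exists_primitiveRoot F n
  obtain ⟨U₁, χ₁, hU₁, h₁, hχ₁⟩ :=
    exists_dual_point hn hcard hζ ((AddMonoidHom.fst _ _).comp b.toAddMonoidHom)
  obtain ⟨U₂, χ₂, hU₂, h₂, hχ₂⟩ :=
    exists_dual_point hn hcard hζ ((AddMonoidHom.snd _ _).comp b.toAddMonoidHom)
  let U : ZMod n × ZMod n → W.Point := fun a => a.1.val • U₁ + a.2.val • U₂
  have hU : ∀ a, n • U a ∈ Tor W n := fun a => by
    simp only [U, nsmul_add, smul_comm n]
    exact add_mem ((Tor W n).smul_of_tower_mem _ hU₁) ((Tor W n).smul_of_tower_mem _ hU₂)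
  have hχU : ∀ a, HasChar W n (U a) fun S => χ₁ S ^ a.1.val * χ₂ S ^ a.2.val := fun a =>
    (h₁.nsmul _).mul (h₂.nsmul _)
  let Φ : ZMod n × ZMod n → Tor W n := fun a => ⟨n • U a, hU a⟩
  have hΦ : Function.Injective Φ := fun a a' h => by
    have he := (hχU a).unique (hχU a') (congr_arg Subtype.val h)
    have e1 := congr_fun he (b.symm (1, 0))
    have e2 := congr_fun he (b.symm (0, 1))
    simp only [hχ₁, hχ₂, AddMonoidHom.coe_comp, Function.comp_apply, AddEquiv.coe_toAddMonoidHom,
      AddEquiv.apply_symm_apply, AddMonoidHom.coe_fst, AddMonoidHom.coe_snd, ZMod.val_zero,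
      pow_zero, one_pow, mul_one, one_mul, ← pow_mul] at e1 e2
    have key : ∀ x y : ZMod n, ζ ^ ((1 : ZMod n).val * x.val) = ζ ^ ((1 : ZMod n).val * y.val) →
        x = y := fun x y h => by
      have h' : AddChar.zmodChar n hζ.pow_eq_one x = AddChar.zmodChar n hζ.pow_eq_one y := by
        rw [← mul_one (x : ZMod n), ← mul_one (y : ZMod n)]
        rw [AddChar.zmodChar_apply, AddChar.zmodChar_apply, ZMod.val_mul, ZMod.val_mul,
          ← pow_eq_pow_mod _ hζ.pow_eq_one, ← pow_eq_pow_mod _ hζ.pow_eq_one, mul_comm,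
          mul_comm y.val]
        exact h
      rw [AddChar.zmodChar_apply, AddChar.zmodChar_apply] at h'
      exact ZMod.val_injective n (hζ.pow_inj (ZMod.val_lt x) (ZMod.val_lt y) h')
    exact Prod.ext (key _ _ e1) (key _ _ e2)
  have hΦs : Function.Surjective Φ :=
    ((Fintype.bijective_iff_injective_and_card Φ).mpr
      ⟨hΦ, by rw [hcard, Fintype.card_prod, ZMod.card, sq]⟩).2
  have hdiv : ∀ T : Tor W n, ∃ V : W.Point, n • V = T := fun T => by
    obtain ⟨a, rfl⟩ := hΦs T
    exact ⟨U a, rfl⟩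
  choose V hV using hdiv
  have hVT : ∀ T, n • V T ∈ Tor W n := fun T => by rw [hV T]; exact T.2
  choose χ hχ using fun T => exists_hasChar hcard (hVT T)
  have hadd : ∀ R S T : Tor W n, χ (S + T) R = χ S R * χ T R := fun R S T =>
    congr_fun ((hχ (S + T)).unique ((hχ S).mul (hχ T))
      (by rw [nsmul_add, hV, hV, hV, Submodule.coe_add])) R
  refine ⟨fun S T => χ T S, fun R S T => (hχ T).char_add R S, fun R S T => ?_, fun T => ?_, ?_,
    fun T => ⟨V T, hV T, hχ T⟩⟩
  · exact hadd R S T
  · have h := (hχ T).apply_self (hVT T)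
    rwa [show (⟨n • V T, hVT T⟩ : Tor W n) = T from Subtype.ext (hV T)] at h
  · set T₁ : Tor W n := ⟨n • U₁, hU₁⟩
    have hT : χ T₁ = χ₁ := (hχ T₁).unique h₁ (hV T₁)
    obtain ⟨a, ha⟩ : ∃ a, b.symm a = T₁ := ⟨b T₁, b.symm_apply_apply _⟩
    have hlin : ∀ (R : Tor W n) (k : ℕ) (T : Tor W n), χ (k • T) R = χ T R ^ k := fun R k T =>
      congr_fun ((hχ (k • T)).unique ((hχ T).nsmul k)
        (by rw [hV, smul_comm, hV]; rfl)) R
    have hdec : T₁ = a.1.val • b.symm (1, 0) + a.2.val • b.symm (0, 1) := by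
      rw [← ha, ← map_nsmul, ← map_nsmul, ← map_add]
      congr 1
      simp
    have h10 : χ T₁ (b.symm (1, 0)) =
        χ (b.symm (0, 1)) (b.symm (1, 0)) ^ a.2.val := by
      rw [hdec, hadd, hlin, hlin]
      have := (hχ (b.symm (1, 0))).apply_self (hVT _)
      rw [show (⟨n • V (b.symm (1, 0)), hVT _⟩ : Tor W n) = b.symm (1, 0) from
        Subtype.ext (hV _)] at this
      simp [this]
    rw [hT, hχ₁] at h10
    have hz : χ (b.symm (0, 1)) (b.symm (1, 0)) ^ n = 1 := by
      rw [← hlin, show n • b.symm (0, 1) = 0 from Subtype.ext (nsmul_tor _)]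
      exact congr_fun ((hχ 0).unique hasChar_zero (by rw [hV]; simp)) _
    refine IsPrimitiveRoot.iff_def _ _ |>.mpr ⟨hz, fun l hl => hζ.dvd_of_pow_eq_one l ?_⟩
    have h1 : ζ ^ (1 : ZMod n).val = ζ := by
      rcases eq_or_ne n 1 with rfl | hn1
      · rw [IsPrimitiveRoot.one_right_iff.mp hζ, one_pow]
      · have : Fact (1 < n) := ⟨by have := NeZero.ne n; omega⟩
        rw [ZMod.val_one, pow_one]
    simp only [AddMonoidHom.coe_comp, Function.comp_apply, AddEquiv.coe_toAddMonoidHom,
      AddEquiv.apply_symm_apply, AddMonoidHom.coe_fst, h1] at h10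
    rw [h10, ← pow_mul, mul_comm, pow_mul, hl, one_pow]

end Fermat.Agent.WeilPairing
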