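import Fermat.Agent.WeilPairing.Basic
import Mathlib.RingTheory.DedekindDomain.FiniteAdeleRing

/-!
# The normalised valuations of the function field of an elliptic curve
-/

set_option autoImplicit false

open WeierstrassCurve WeierstrassCurve.Affine Polynomial IsDedekindDomain WithZero
open scoped Polynomial.Bivariate nonZeroDivisors

namespace Fermat.Agent.WeilPairing

universe u

variable {F : Type u} [Field F] {W : Affine F}

/-- The element of the function field given by an element of the coordinate ring. -/
noncomputable abbrev toFF (W : Affine F) : W.CoordinateRing →+* W.FunctionField :=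
  algebraMap W.CoordinateRing W.FunctionField

/-- A constant, as an element of the function field. -/
noncomputable abbrev cst (W : Affine F) : F →+* W.FunctionField := algebraMap F W.FunctionField

/-- The coordinate function `X`. -/
noncomputable def xgen (W : Affine F) : W.FunctionField := toFF W (CoordinateRing.mk W (C X))

/-- The coordinate function `Y`. -/
noncomputable def ygen (W : Affine F) : W.FunctionField := toFF W (CoordinateRing.mk W Y)

lemma toFF_injective : Function.Injective (toFF W) := IsFractionRing.injective _ _

/-- A nonzero regular function is nonzero in the function field. -/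
lemma toFF_ne_zero {f : W.CoordinateRing} (hf : f ≠ 0) : toFF W f ≠ 0 :=
  (map_ne_zero_iff _ toFF_injective).mpr hf

lemma mk_C_C (c : F) :
    CoordinateRing.mk W (C (C c)) = algebraMap F W.CoordinateRing c := rfl

/-- A constant comes from the coordinate ring. -/
lemma cst_eq (c : F) : cst W c = toFF W (CoordinateRing.mk W (C (C c))) := by
  rw [mk_C_C]
  exact IsScalarTower.algebraMap_apply F W.CoordinateRing W.FunctionField c

/-- `XClass c` is the function `X - c`. -/
lemma toFF_XClass (c : F) : toFF W (CoordinateRing.XClass W c) = xgen W - cst W c := by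
  rw [CoordinateRing.XClass, xgen, cst_eq, ← map_sub, ← map_sub, C_sub]

/-- `YClass c` is the function `Y - c`. -/
lemma toFF_YClass_C (c : F) : toFF W (CoordinateRing.YClass W (C c)) = ygen W - cst W c := by
  rw [CoordinateRing.YClass, ygen, cst_eq, ← map_sub, ← map_sub]

/-- `p + q Y` as a function. -/
lemma toFF_smul_basis (p q : F[X]) :
    toFF W (p • 1 + q • CoordinateRing.mk W Y) =
      p.eval₂ (cst W) (xgen W) + q.eval₂ (cst W) (xgen W) * ygen W := by
  have h : ∀ r : F[X], toFF W (CoordinateRing.mk W (C r)) = r.eval₂ (cst W) (xgen W) := by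
    intro r
    induction r using Polynomial.induction_on' with
    | add a b ha hb => rw [C_add, map_add, map_add, ha, hb, eval₂_add]
    | monomial n a =>
      rw [eval₂_monomial, ← C_mul_X_pow_eq_monomial, C_mul, C_pow, map_mul, map_pow, map_mul,
        map_pow, cst_eq, xgen]
  rw [map_add, CoordinateRing.smul, CoordinateRing.smul, mul_one, map_mul, h, h, ygen]

/-- The degree valuation at infinity on the coordinate ring. -/
noncomputable def infValA (W : Affine F) : Valuation W.CoordinateRing ℤᵐ⁰ := by
  classical
  exact
  { toFun := fun f => if f = 0 then 0 else exp ((Algebra.norm F[X] f).natDegree : ℤ)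
    map_zero' := if_pos rfl
    map_one' := by simp
    map_mul' := fun f g => by
      by_cases hf : f = 0
      · simp [hf]
      by_cases hg : g = 0
      · simp [hg]
      rw [if_neg (mul_ne_zero hf hg), if_neg hf, if_neg hg, map_mul,
        natDegree_mul (Algebra.norm_ne_zero_iff.mpr hf) (Algebra.norm_ne_zero_iff.mpr hg),
        Nat.cast_add, exp_add]
    map_add_le_max' := fun f g => by
      by_cases hfg : f + g = 0
      · simp [hfg]
      by_cases hf : f = 0
      · simp [hf]
      by_cases hg : g = 0
      · simp [hg]
      rw [if_neg hfg, if_neg hf, if_neg hg, le_max_iff, exp_le_exp, exp_le_exp]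
      suffices h : (Algebra.norm F[X] (f + g)).degree ≤
          max (Algebra.norm F[X] f).degree (Algebra.norm F[X] g).degree by
        rcases le_max_iff.mp h with h | h
        · exact Or.inl (mod_cast natDegree_le_natDegree h)
        · exact Or.inr (mod_cast natDegree_le_natDegree h)
      obtain ⟨p₁, q₁, rfl⟩ := CoordinateRing.exists_smul_basis_eq f
      obtain ⟨p₂, q₂, rfl⟩ := CoordinateRing.exists_smul_basis_eq g
      rw [show p₁ • (1 : W.CoordinateRing) + q₁ • CoordinateRing.mk W Y +
          (p₂ • (1 : W.CoordinateRing) + q₂ • CoordinateRing.mk W Y) =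
          (p₁ + p₂) • (1 : W.CoordinateRing) + (q₁ + q₂) • CoordinateRing.mk W Y by
        rw [add_smul, add_smul]; abel]
      simp only [CoordinateRing.degree_norm_smul_basis]
      refine max_le ?_ ?_
      · rcases le_max_iff.mp (degree_add_le p₁ p₂) with h | h
        · exact le_max_of_le_left (le_max_of_le_left (nsmul_le_nsmul_right h 2))
        · exact le_max_of_le_right (le_max_of_le_left (nsmul_le_nsmul_right h 2))
      · rcases le_max_iff.mp (degree_add_le q₁ q₂) with h | h
        · exact le_max_of_le_left
            (le_max_of_le_right (add_le_add_left (nsmul_le_nsmul_right h 2) 3))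
        · exact le_max_of_le_right (le_max_of_le_right
            (add_le_add_left (nsmul_le_nsmul_right h 2) 3)) }

/-- `infValA` is given by the degree of the norm. -/
lemma infValA_apply {f : W.CoordinateRing} (hf : f ≠ 0) :
    infValA W f = exp ((Algebra.norm F[X] f).natDegree : ℤ) := if_neg hf

lemma nonZeroDivisors_le_infValA :
    W.CoordinateRing⁰ ≤ (infValA W).supp.primeCompl := fun f hf h => by
  rw [SetLike.mem_coe, Valuation.mem_supp_iff, infValA_apply (nonZeroDivisors.ne_zero hf)] at h
  exact exp_ne_zero h

variable [IsAlgClosed F] [W.IsElliptic]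

/-- The normalised valuation of the function field attached to a point. -/
noncomputable def placeVal : W.Point → Valuation W.FunctionField ℤᵐ⁰
  | .zero => (infValA W).extendToLocalization nonZeroDivisors_le_infValA W.FunctionField
  | .some _ _ h => (ptPrime h).valuation W.FunctionField

/-- At infinity a regular function is measured by `infValA`. -/
lemma placeVal_zero_toFF (f : W.CoordinateRing) :
    placeVal (0 : W.Point) (toFF W f) = infValA W f :=
  Valuation.extendToLocalization_apply_map_apply _ nonZeroDivisors_le_infValA _ f

/-- At an affine point a regular function is measured by `ptPrime`. -/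
lemma placeVal_some_toFF {x y : F} (h : W.Nonsingular x y) (f : W.CoordinateRing) :
    placeVal (.some x y h) (toFF W f) = (ptPrime h).intValuation f :=
  (ptPrime h).valuation_of_algebraMap f

/-- The order of a function at a point. -/
noncomputable def ordAt (P : W.Point) (f : W.FunctionField) : ℤ := -log (placeVal P f)

/-- The valuation at a point is `exp` of minus the order. -/
lemma placeVal_eq_exp (P : W.Point) {f : W.FunctionField} (hf : f ≠ 0) :
    placeVal P f = exp (-ordAt P f) := by
  rw [ordAt, neg_neg, exp_log ((Valuation.ne_zero_iff _).mpr hf)]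

/-- The order is additive. -/
lemma ordAt_mul (P : W.Point) {f g : W.FunctionField} (hf : f ≠ 0) (hg : g ≠ 0) :
    ordAt P (f * g) = ordAt P f + ordAt P g := by
  rw [ordAt, ordAt, ordAt, map_mul,
    log_mul ((Valuation.ne_zero_iff _).mpr hf) ((Valuation.ne_zero_iff _).mpr hg)]
  ring

@[simp] lemma ordAt_one (P : W.Point) : ordAt P 1 = 0 := by simp [ordAt]

/-- The order of an inverse. -/
lemma ordAt_inv (P : W.Point) (f : W.FunctionField) : ordAt P f⁻¹ = -ordAt P f := by
  simp [ordAt]

/-- The order of a quotient. -/
lemma ordAt_div (P : W.Point) {f g : W.FunctionField} (hf : f ≠ 0) (hg : g ≠ 0) :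
    ordAt P (f / g) = ordAt P f - ordAt P g := by
  rw [div_eq_mul_inv, ordAt_mul P hf (inv_ne_zero hg), ordAt_inv]; ring

/-- The order of a product. -/
lemma ordAt_prod (P : W.Point) {ι : Type*} (s : Finset ι) (f : ι → W.FunctionField)
    (hf : ∀ i ∈ s, f i ≠ 0) : ordAt P (∏ i ∈ s, f i) = ∑ i ∈ s, ordAt P (f i) := by
  classical
  induction s using Finset.induction_on with
  | empty => simp
  | insert a s ha ih =>
    rw [Finset.prod_insert ha, Finset.sum_insert ha, ordAt_mul P (hf a (Finset.mem_insert_self ..))
      (Finset.prod_ne_zero_iff.mpr fun i hi => hf i (Finset.mem_insert_of_mem hi)),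
      ih fun i hi => hf i (Finset.mem_insert_of_mem hi)]

/-- Nonzero constants are units at every point. -/
lemma placeVal_cst (P : W.Point) {c : F} (hc : c ≠ 0) : placeVal P (cst W c) = 1 := by
  have hu : IsUnit (algebraMap F W.CoordinateRing c) := (Ne.isUnit hc).map _
  rw [cst_eq, mk_C_C]
  cases P with
  | zero =>
    rw [← Point.zero_def, placeVal_zero_toFF, infValA_apply hu.ne_zero,
      natDegree_eq_zero_of_isUnit (hu.map _)]
    rfl
  | some x y h =>
    rw [placeVal_some_toFF, HeightOneSpectrum.intValuation_eq_one_iff]
    exact fun hm => (ptPrime h).isPrime.ne_top (Ideal.eq_top_of_isUnit_mem _ hm hu)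

/-- Constants have order `0`. -/
@[simp] lemma ordAt_cst (P : W.Point) (c : F) : ordAt P (cst W c) = 0 := by
  rcases eq_or_ne c 0 with rfl | hc
  · simp [ordAt]
  · simp [ordAt, placeVal_cst P hc]

/-- The ideal of a point consists of the regular functions vanishing there. -/
lemma mem_ptIdeal_iff {x y : F} (h : W.Nonsingular x y) (f : W.CoordinateRing) :
    f ∈ ptIdeal W x y ↔ placeVal (.some x y h) (toFF W f) < 1 := by
  rw [placeVal_some_toFF, HeightOneSpectrum.intValuation_lt_one_iff_mem]; rfl

lemma placeVal_some_le_one {x y : F} (h : W.Nonsingular x y) (f : W.CoordinateRing) :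
    placeVal (.some x y h) (toFF W f) ≤ 1 := by
  rw [placeVal_some_toFF]; exact HeightOneSpectrum.intValuation_le_one _ _

/-- `X - x` vanishes at `(x, y)`. -/
lemma placeVal_some_xgen {x y : F} (h : W.Nonsingular x y) :
    placeVal (.some x y h) (xgen W - cst W x) < 1 := by
  rw [← toFF_XClass, ← mem_ptIdeal_iff]
  exact Ideal.subset_span (Set.mem_insert _ _)

/-- `Y - y` vanishes at `(x, y)`. -/
lemma placeVal_some_ygen {x y : F} (h : W.Nonsingular x y) :
    placeVal (.some x y h) (ygen W - cst W y) < 1 := by
  rw [← toFF_YClass_C, ← mem_ptIdeal_iff]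
  exact Ideal.subset_span (Set.mem_insert_of_mem _ rfl)

/-- `X` is regular at an affine point. -/
lemma placeVal_some_xgen_le {x y : F} (h : W.Nonsingular x y) :
    placeVal (.some x y h) (xgen W) ≤ 1 :=
  placeVal_some_le_one h _

/-- `X` has a double pole at infinity. -/
lemma placeVal_zero_xgen : placeVal (0 : W.Point) (xgen W) = exp (2 : ℤ) := by
  have hf : CoordinateRing.mk W (C X) = (X : F[X]) • (1 : W.CoordinateRing) +
      (0 : F[X]) • CoordinateRing.mk W Y := by
    rw [zero_smul, add_zero, CoordinateRing.smul, mul_one]
  have hd : (Algebra.norm F[X] (CoordinateRing.mk W (C X))).degree = 2 := by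
    rw [hf, CoordinateRing.degree_norm_smul_basis, degree_X, degree_zero]; rfl
  have hne : CoordinateRing.mk W (C X) ≠ 0 := by
    intro h0; rw [h0, Algebra.norm_zero, degree_zero] at hd; exact WithBot.bot_ne_coe hd
  rw [xgen, placeVal_zero_toFF, infValA_apply hne, natDegree_eq_of_degree_eq_some hd]
  rfl

/-- The valuation of a point is normalised. -/
lemma placeVal_surjective (P : W.Point) : Function.Surjective (placeVal P) := by
  have key : ∀ g : W.FunctionField, placeVal P g = exp (-1 : ℤ) →
      Function.Surjective (placeVal P) := fun g hg z => by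
    rcases eq_or_ne z 0 with rfl | hz
    · exact ⟨0, map_zero _⟩
    refine ⟨g ^ (-log z), ?_⟩
    rw [map_zpow₀, hg, ← exp_zsmul]
    simp [exp_log hz]
  cases P with
  | zero =>
    have hy : placeVal (0 : W.Point) (ygen W) = exp (3 : ℤ) := by
      have hd : (Algebra.norm F[X] (CoordinateRing.mk W Y)).degree = 3 := by
        rw [show CoordinateRing.mk W Y = (0 : F[X]) • (1 : W.CoordinateRing) +
            (1 : F[X]) • CoordinateRing.mk W Y by rw [zero_smul, zero_add, one_smul],
          CoordinateRing.degree_norm_smul_basis, degree_one, degree_zero]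
        rfl
      have hne : CoordinateRing.mk W Y ≠ 0 := by
        intro h0; rw [h0, Algebra.norm_zero, degree_zero] at hd; exact WithBot.bot_ne_coe hd
      rw [ygen, placeVal_zero_toFF, infValA_apply hne, natDegree_eq_of_degree_eq_some hd]
      rfl
    refine key (xgen W / ygen W) ?_
    rw [← Point.zero_def, map_div₀, hy, placeVal_zero_xgen, ← exp_sub]
    rfl
  | some x y h =>
    obtain ⟨π, hπ⟩ := (ptPrime h).valuation_exists_uniformizer W.FunctionField
    exact key π hπ

end Fermat.Agent.WeilPairing
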