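import Fermat.Agent.WeilPairing.Divisors

/-!
# Translations acting on the function field of an elliptic curve
-/

set_option autoImplicit false

open WeierstrassCurve WeierstrassCurve.Affine Polynomial IsDedekindDomain WithZero
open scoped Polynomial.Bivariate nonZeroDivisors

namespace Fermat.Agent.WeilPairing

universe u

variable {F : Type u} [Field F] {W : Affine F}

instance instIsEllipticBaseChange {R : Type*} {A : Type*} [CommRing R] [CommRing A] [Algebra R A]
    (W : WeierstrassCurve R) [W.IsElliptic] : (W.baseChange A).IsElliptic :=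
  inferInstanceAs (W.map (algebraMap R A)).IsElliptic

lemma point_some_ext {R : Type*} [CommRing R] {V : Affine R} {x y x' y' : R}
    {h : V.Nonsingular x y} {h' : V.Nonsingular x' y'} (hx : x = x') (hy : y = y') :
    (Point.some x y h : V.Point) = .some x' y' h' := by
  subst hx hy; rfl

lemma baseChange_equation_iff (x y : W.FunctionField) :
    (W⁄W.FunctionField).Equation x y ↔
      y ^ 2 + cst W W.a₁ * x * y + cst W W.a₃ * y =
        x ^ 3 + cst W W.a₂ * x ^ 2 + cst W W.a₄ * x + cst W W.a₆ :=
  equation_iff x y

/-- Ring homomorphisms out of the function field are determined by constants and coordinates. -/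
lemma functionField_hom_ext {L : Type*} [Field L] {f g : W.FunctionField →+* L}
    (hc : ∀ c : F, f (cst W c) = g (cst W c)) (hx : f (xgen W) = g (xgen W))
    (hy : f (ygen W) = g (ygen W)) : f = g := by
  have hA : ∀ a : W.CoordinateRing, f (toFF W a) = g (toFF W a) := by
    intro a
    obtain ⟨p, q, rfl⟩ := CoordinateRing.exists_smul_basis_eq a
    have hp : ∀ r : F[X], f (r.eval₂ (cst W) (xgen W)) = g (r.eval₂ (cst W) (xgen W)) := fun r => by
      rw [hom_eval₂, hom_eval₂, hx]
      congr 1
      exact RingHom.ext hc
    rw [toFF_smul_basis, map_add, map_add, map_mul, map_mul, hp, hp, hy]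
  refine RingHom.ext fun z => ?_
  obtain ⟨a, b, -, rfl⟩ := IsFractionRing.div_surjective (A := W.CoordinateRing) z
  rw [map_div₀, map_div₀, hA, hA]

/-- The homomorphism on the coordinate ring with given coordinate images. -/
noncomputable def coordHom {L : Type*} [Field L] (φ : F →+* L) (x y : L)
    (h : y ^ 2 + φ W.a₁ * x * y + φ W.a₃ * y =
      x ^ 3 + φ W.a₂ * x ^ 2 + φ W.a₄ * x + φ W.a₆) : W.CoordinateRing →+* L :=
  AdjoinRoot.lift (eval₂RingHom φ x) y <| by
    simp only [WeierstrassCurve.Affine.polynomial, eval₂_add, eval₂_sub, eval₂_mul, eval₂_pow,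
      eval₂_X, eval₂_C, coe_eval₂RingHom, map_add, map_mul, map_pow]
    linear_combination h

/-- `coordHom` evaluates polynomials in `X` at `x`. -/
lemma coordHom_mk_C {L : Type*} [Field L] (φ : F →+* L) (x y : L)
    (h : y ^ 2 + φ W.a₁ * x * y + φ W.a₃ * y =
      x ^ 3 + φ W.a₂ * x ^ 2 + φ W.a₄ * x + φ W.a₆) (r : F[X]) :
    coordHom φ x y h (CoordinateRing.mk W (C r)) = r.eval₂ φ x := by
  simp [coordHom]

/-- `coordHom` sends `Y` to `y`. -/
lemma coordHom_mk_Y {L : Type*} [Field L] (φ : F →+* L) (x y : L)
    (h : y ^ 2 + φ W.a₁ * x * y + φ W.a₃ * y =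
      x ^ 3 + φ W.a₂ * x ^ 2 + φ W.a₄ * x + φ W.a₆) :
    coordHom φ x y h (CoordinateRing.mk W Y) = y := by
  simp [coordHom]

variable [IsAlgClosed F] [W.IsElliptic]

/-- `coordHom` at a non-constant point is injective. -/
lemma coordHom_injective {L : Type*} [Field L] (φ : F →+* L) (x y : L)
    (h : y ^ 2 + φ W.a₁ * x * y + φ W.a₃ * y =
      x ^ 3 + φ W.a₂ * x ^ 2 + φ W.a₄ * x + φ W.a₆)
    (hne : ∀ a b : F, W.Nonsingular a b → ¬(x = φ a ∧ y = φ b)) :
    Function.Injective (coordHom φ x y h) := by
  rw [RingHom.injective_iff_ker_eq_bot]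
  by_contra hker
  obtain ⟨a, b, hab, hm⟩ := exists_eq_ptIdeal
    ((RingHom.ker_isPrime (coordHom φ x y h)).isMaximal hker)
  apply hne a b (equation_iff_nonsingular.mp hab)
  have hX : coordHom φ x y h (CoordinateRing.XClass W a) = 0 := by
    rw [← RingHom.mem_ker, hm]; exact Ideal.subset_span (Set.mem_insert _ _)
  have hY : coordHom φ x y h (CoordinateRing.YClass W (C b)) = 0 := by
    rw [← RingHom.mem_ker, hm]; exact Ideal.subset_span (Set.mem_insert_of_mem _ rfl)
  rw [CoordinateRing.XClass, coordHom_mk_C, eval₂_sub, eval₂_X, eval₂_C, sub_eq_zero] at hX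
  rw [CoordinateRing.YClass, map_sub, map_sub, coordHom_mk_Y, coordHom_mk_C, eval₂_C,
    sub_eq_zero] at hY
  exact ⟨hX, hY⟩

/-- `X` is not constant. -/
lemma xgen_ne_cst (c : F) : xgen W ≠ cst W c := fun h => by
  have h2 := le_one_of_const (placeVal (0 : W.Point)) (fun c => placeVal_cst 0) c
  rw [← h, placeVal_zero_xgen, ← exp_zero, exp_le_exp] at h2
  norm_num at h2

/-- The generic point of the curve. -/
noncomputable def genPt (W : Affine F) [W.IsElliptic] : (W⁄W.FunctionField).Point :=
  .some (xgen W) (ygen W)
    (equation_iff_nonsingular.mp ((baseChange_equation_iff _ _).mpr xgen_ygen_equation))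

variable [DecidableEq F]

open scoped Classical in
/-- The constant points of the curve over its function field. -/
noncomputable def constPt (W : Affine F) : W.Point →+ (W⁄W.FunctionField).Point where
  toFun
    | .zero => 0
    | .some x y h => .some (cst W x) (cst W y) ((W.map_nonsingular (cst W).injective x y).mpr h)
  map_zero' := rfl
  map_add' := by
    rintro (_ | ⟨x₁, y₁, h₁⟩) (_ | ⟨x₂, y₂, h₂⟩)
    any_goals rfl
    have hneg : (W⁄W.FunctionField).negY (cst W x₂) (cst W y₂) = cst W (W.negY x₂ y₂) :=
      W.map_negY (cst W) x₂ y₂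
    by_cases hxy : x₁ = x₂ ∧ y₁ = W.negY x₂ y₂
    · rw [Point.add_of_Y_eq hxy.1 hxy.2]
      exact (Point.add_of_Y_eq (congr_arg _ hxy.1) ((congr_arg _ hxy.2).trans hneg.symm)).symm
    · have hxy' : ¬(cst W x₁ = cst W x₂ ∧
          cst W y₁ = (W⁄W.FunctionField).negY (cst W x₂) (cst W y₂)) :=
        fun h => hxy ⟨(cst W).injective h.1, (cst W).injective (h.2.trans hneg)⟩
      rw [Point.add_some hxy]
      refine Eq.trans ?_ (Point.add_some hxy').symm
      exact point_some_ext
        ((congr_arg _ (W.map_slope (cst W) x₁ x₂ y₁ y₂)).trans (W.map_addX ..)).symm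
        ((congr_arg _ (W.map_slope (cst W) x₁ x₂ y₁ y₂)).trans (W.map_addY ..)).symm

open scoped Classical in
lemma genPt_ne_constPt (P : W.Point) : genPt W ≠ constPt W P := by
  cases P with
  | zero => rw [← Point.zero_def, map_zero]; exact Point.some_ne_zero _
  | some x y h =>
    exact fun he => xgen_ne_cst x (Point.some.inj he).1

open scoped Classical in
lemma exists_translate_coords (S : W.Point) :
    ∃ (x y : W.FunctionField) (h : (W⁄W.FunctionField).Nonsingular x y),
      genPt W + constPt W S = .some x y h := by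
  have hne : genPt W + constPt W S ≠ 0 := fun h0 => by
    rw [add_eq_zero_iff_eq_neg, ← map_neg] at h0
    exact genPt_ne_constPt _ h0
  generalize genPt W + constPt W S = P at hne
  cases P with
  | zero => exact (hne rfl).elim
  | some x y h => exact ⟨x, y, h, rfl⟩

/-- The image of `X` under translation by `S`. -/
noncomputable def trX (S : W.Point) : W.FunctionField := (exists_translate_coords S).choose

/-- The image of `Y` under translation by `S`. -/
noncomputable def trY (S : W.Point) : W.FunctionField :=
  (exists_translate_coords S).choose_spec.choose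

lemma tr_nonsingular (S : W.Point) : (W⁄W.FunctionField).Nonsingular (trX S) (trY S) :=
  (exists_translate_coords S).choose_spec.choose_spec.choose

open scoped Classical in
/-- The generic point plus `S` is `(trX S, trY S)`. -/
lemma genPt_add_constPt (S : W.Point) :
    genPt W + constPt W S = .some (trX S) (trY S) (tr_nonsingular S) :=
  (exists_translate_coords S).choose_spec.choose_spec.choose_spec

lemma tr_ne_const (S : W.Point) (a b : F) (hab : W.Nonsingular a b) :
    ¬(trX S = cst W a ∧ trY S = cst W b) := by
  classical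
  rintro ⟨hx, hy⟩
  have h : genPt W + constPt W S = constPt W (.some a b hab) := by
    rw [genPt_add_constPt]; exact point_some_ext hx hy
  rw [← eq_sub_iff_add_eq, ← map_sub] at h
  exact genPt_ne_constPt _ h

/-- Translation by `S` on the coordinate ring. -/
noncomputable def transA (S : W.Point) : W.CoordinateRing →+* W.FunctionField :=
  coordHom (cst W) (trX S) (trY S) ((baseChange_equation_iff _ _).mp (tr_nonsingular S).left)

lemma transA_injective (S : W.Point) : Function.Injective (transA S) :=
  coordHom_injective _ _ _ _ (tr_ne_const S)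

lemma transA_mk_C (S : W.Point) (r : F[X]) :
    transA S (CoordinateRing.mk W (C r)) = r.eval₂ (cst W) (trX S) :=
  coordHom_mk_C ..

lemma transA_mk_Y (S : W.Point) : transA S (CoordinateRing.mk W Y) = trY S :=
  coordHom_mk_Y ..

/-- Translation by `S` on the function field. -/
noncomputable def transHom (S : W.Point) : W.FunctionField →ₐ[F] W.FunctionField :=
  { IsFractionRing.lift (transA_injective S) with
    commutes' := fun c => by
      show IsFractionRing.lift (transA_injective S) (cst W c) = cst W c
      rw [cst_eq, IsFractionRing.lift_algebraMap, transA_mk_C, eval₂_C, ← cst_eq] }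

/-- Translation sends `X` to `trX S`. -/
lemma transHom_xgen (S : W.Point) : transHom S (xgen W) = trX S := by
  show IsFractionRing.lift (transA_injective S) (toFF W _) = _
  rw [IsFractionRing.lift_algebraMap, transA_mk_C, eval₂_X]

/-- Translation sends `Y` to `trY S`. -/
lemma transHom_ygen (S : W.Point) : transHom S (ygen W) = trY S := by
  show IsFractionRing.lift (transA_injective S) (toFF W _) = _
  rw [IsFractionRing.lift_algebraMap, transA_mk_Y]

open scoped Classical in
lemma map_transHom_genPt (S : W.Point) :
    Point.map (W' := W) (transHom S) (genPt W) = genPt W + constPt W S := by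
  rw [genPt_add_constPt]
  exact point_some_ext (transHom_xgen S) (transHom_ygen S)

open scoped Classical in
lemma map_transHom_constPt (S T : W.Point) :
    Point.map (W' := W) (transHom S) (constPt W T) = constPt W T := by
  cases T with
  | zero => rw [← Point.zero_def, map_zero, map_zero]
  | some x y h => exact point_some_ext ((transHom S).commutes x) ((transHom S).commutes y)

lemma transHom_comp (S T : W.Point) : (transHom S).comp (transHom T) = transHom (S + T) := by
  classical
  have key : Point.map (W' := W) ((transHom S).comp (transHom T)) (genPt W) =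
      Point.map (W' := W) (transHom (S + T)) (genPt W) := by
    rw [← Point.map_map, map_transHom_genPt, map_add, map_transHom_genPt, map_transHom_constPt,
      map_transHom_genPt, map_add, add_assoc]
  replace key := Point.some.inj key
  refine AlgHom.coe_ringHom_injective (functionField_hom_ext (fun c => ?_) key.1 key.2)
  exact (((transHom S).comp (transHom T)).commutes c).trans ((transHom (S + T)).commutes c).symm

lemma transHom_zero : transHom (0 : W.Point) = AlgHom.id F W.FunctionField := by
  classical
  have key : Point.map (W' := W) (transHom (0 : W.Point)) (genPt W) = genPt W := by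
    rw [map_transHom_genPt, map_zero, add_zero]
  replace key := Point.some.inj key
  exact AlgHom.coe_ringHom_injective
    (functionField_hom_ext (fun c => (transHom (0 : W.Point)).commutes c) key.1 key.2)

/-- Translations compose by addition of points. -/
lemma transHom_transHom (S T : W.Point) (f : W.FunctionField) :
    transHom S (transHom T f) = transHom (S + T) f :=
  AlgHom.congr_fun (transHom_comp S T) f

/-- Translation by `0` is the identity. -/
lemma transHom_zero_apply (f : W.FunctionField) : transHom (0 : W.Point) f = f :=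
  AlgHom.congr_fun transHom_zero f

/-- Translation preserves nonvanishing. -/
lemma transHom_ne_zero (S : W.Point) {f : W.FunctionField} (hf : f ≠ 0) : transHom S f ≠ 0 :=
  (map_ne_zero (transHom S).toRingHom).mpr hf

/-- Translations by distinct points are distinct. -/
lemma transHom_injective_left : Function.Injective (transHom (W := W)) := by
  classical
  intro S T h
  have h2 := map_transHom_genPt S
  rw [h, map_transHom_genPt, add_right_inj] at h2
  exact ((injective_iff_map_eq_zero _).mpr fun P hP => by
    cases P with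
    | zero => rfl
    | some x y hh => exact absurd hP (Point.some_ne_zero _) :
    Function.Injective (constPt W)) h2.symm

omit [DecidableEq F] in
/-- An automorphism preserving constants maps places to places. -/
lemma exists_eq_placeVal_comap (φ : W.FunctionField →+* W.FunctionField)
    (hφ : Function.Surjective φ) (hc : ∀ c : F, c ≠ 0 → ∃ d : F, d ≠ 0 ∧ φ (cst W c) = cst W d)
    (P : W.Point) : ∃ Q : W.Point, (placeVal P).comap φ = placeVal Q :=
  exists_eq_placeVal _ (fun c hc0 => by
      obtain ⟨d, hd, he⟩ := hc c hc0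
      rw [Valuation.comap_apply, he, placeVal_cst P hd])
    ((placeVal_surjective P).comp hφ)

lemma exists_transPlace (S P : W.Point) :
    ∃ Q : W.Point, (placeVal P).comap (transHom S).toRingHom = placeVal Q :=
  exists_eq_placeVal_comap _ (fun f => ⟨transHom (-S) f, by
      show transHom S (transHom (-S) f) = f
      rw [transHom_transHom, add_neg_cancel, transHom_zero_apply]⟩)
    (fun c hc => ⟨c, hc, (transHom S).commutes c⟩) P

/-- The permutation of places induced by translation; it is shown to be `P ↦ P + S`. -/
noncomputable def transPlace (S : W.Point) : W.Point ≃ W.Point where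
  toFun P := (exists_transPlace S P).choose
  invFun P := (exists_transPlace (-S) P).choose
  left_inv P := by
    apply placeVal_injective
    rw [← (exists_transPlace (-S) (exists_transPlace S P).choose).choose_spec,
      ← (exists_transPlace S P).choose_spec]
    refine Valuation.ext fun f => ?_
    show placeVal P (transHom S (transHom (-S) f)) = _
    rw [transHom_transHom, add_neg_cancel, transHom_zero_apply]
  right_inv P := by
    apply placeVal_injective
    rw [← (exists_transPlace S (exists_transPlace (-S) P).choose).choose_spec,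
      ← (exists_transPlace (-S) P).choose_spec]
    refine Valuation.ext fun f => ?_
    show placeVal P (transHom (-S) (transHom S f)) = _
    rw [transHom_transHom, neg_add_cancel, transHom_zero_apply]

lemma placeVal_transPlace (S P : W.Point) (f : W.FunctionField) :
    placeVal (transPlace S P) f = placeVal P (transHom S f) :=
  (DFunLike.congr_fun (exists_transPlace S P).choose_spec f).symm

lemma ordAt_transPlace (S P : W.Point) (f : W.FunctionField) :
    ordAt (transPlace S P) f = ordAt P (transHom S f) := by
  rw [ordAt, ordAt, placeVal_transPlace]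

lemma divOf_transHom_eq (S : W.Point) (f : W.FunctionField) :
    divOf (transHom S f) = (divOf f).mapDomain (transPlace S).symm := by
  refine Finsupp.ext fun P => ?_
  conv_rhs => rw [← (transPlace S).symm_apply_apply P,
    Finsupp.mapDomain_apply (transPlace S).symm.injective]
  rw [divOf_apply, divOf_apply, ordAt_transPlace]

section Reduction

variable {K : Type*} [Field K] (v : Valuation K ℤᵐ⁰) (φ : F →+* K)

/-- `f` reduces to the constant `c` at `v`. -/
def Sees (f : K) (c : F) : Prop := v (f - φ c) < 1

variable {v φ}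

omit [IsAlgClosed F] [W.IsElliptic] [DecidableEq F] in
/-- A constant reduces to itself. -/
lemma Sees.const (c : F) : Sees v φ (φ c) c := by simp [Sees]

omit [IsAlgClosed F] [W.IsElliptic] [DecidableEq F] in
/-- `Sees` is compatible with addition. -/
lemma Sees.add {f g : K} {c d : F} (hf : Sees v φ f c) (hg : Sees v φ g d) :
    Sees v φ (f + g) (c + d) := by
  rw [Sees, map_add, show f + g - (φ c + φ d) = (f - φ c) + (g - φ d) by ring]
  exact v.map_add_lt hf hg

omit [IsAlgClosed F] [W.IsElliptic] [DecidableEq F] in
/-- `Sees` is compatible with negation. -/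
lemma Sees.neg {f : K} {c : F} (hf : Sees v φ f c) : Sees v φ (-f) (-c) := by
  rw [Sees, map_neg, show -f - -φ c = -(f - φ c) by ring, Valuation.map_neg]
  exact hf

omit [IsAlgClosed F] [W.IsElliptic] [DecidableEq F] in
/-- `Sees` is compatible with subtraction. -/
lemma Sees.sub {f g : K} {c d : F} (hf : Sees v φ f c) (hg : Sees v φ g d) :
    Sees v φ (f - g) (c - d) := by
  simpa [sub_eq_add_neg] using hf.add hg.neg

omit [IsAlgClosed F] [W.IsElliptic] [DecidableEq F] in
/-- `Sees` is compatible with multiplication. -/
lemma Sees.mul {f g : K} {c d : F} (hφ : ∀ a : F, v (φ a) ≤ 1) (hf : Sees v φ f c)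
    (hg : Sees v φ g d) : Sees v φ (f * g) (c * d) := by
  have hf1 : v f ≤ 1 := by
    rw [show f = (f - φ c) + φ c by ring]
    exact (v.map_add _ _).trans (max_le hf.le (hφ c))
  rw [Sees, map_mul, show f * g - φ c * φ d = f * (g - φ d) + (f - φ c) * φ d by ring]
  refine v.map_add_lt ?_ ?_
  · rw [map_mul]; exact lt_of_le_of_lt (mul_le_of_le_one_left' hf1) hg
  · rw [map_mul]; exact lt_of_le_of_lt (mul_le_of_le_one_right' (hφ d)) hf

omit [IsAlgClosed F] [W.IsElliptic] [DecidableEq F] in
/-- `Sees` is compatible with inversion of nonzero values. -/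
lemma Sees.inv {f : K} {c : F} (hφ : ∀ a : F, a ≠ 0 → v (φ a) = 1) (hc : c ≠ 0)
    (hf : Sees v φ f c) : Sees v φ f⁻¹ c⁻¹ := by
  have hv : v f = 1 := by
    rw [show f = φ c + (f - φ c) by ring, v.map_add_eq_of_lt_left (by rw [hφ c hc]; exact hf),
      hφ c hc]
  have hf0 : f ≠ 0 := (Valuation.ne_zero_iff v).mp (hv ▸ one_ne_zero)
  have hc0 : φ c ≠ 0 := (map_ne_zero φ).mpr hc
  rw [Sees, map_inv₀, show f⁻¹ - (φ c)⁻¹ = -(f - φ c) * (f⁻¹ * (φ c)⁻¹) by field_simp; ring,
    map_mul, Valuation.map_neg, map_mul, map_inv₀, map_inv₀, hv, hφ c hc, inv_one, mul_one,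
    mul_one]
  exact hf

omit [IsAlgClosed F] [W.IsElliptic] [DecidableEq F] in
/-- `Sees` is compatible with the `X`-coordinate of a sum. -/
lemma Sees.addX {V : Affine K} (hφ : ∀ a : F, v (φ a) ≤ 1) {x₁ x₂ l : K} {c₁ c₂ m : F}
    (hl : Sees v φ l m) (h₁ : Sees v φ x₁ c₁) (h₂ : Sees v φ x₂ c₂)
    (ha₁ : V.a₁ = φ W.a₁) (ha₂ : V.a₂ = φ W.a₂) :
    Sees v φ (V.addX x₁ x₂ l) (W.addX c₁ c₂ m) := by
  rw [Affine.addX, Affine.addX, ha₁, ha₂, sq, sq]
  exact ((((hl.mul hφ hl).add ((Sees.const W.a₁).mul hφ hl)).sub (Sees.const W.a₂)).sub h₁).sub h₂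

omit [IsAlgClosed F] [W.IsElliptic] [DecidableEq F] in
/-- `Sees` is compatible with the `Y`-coordinate of a sum. -/
lemma Sees.addY {V : Affine K} (hφ : ∀ a : F, v (φ a) ≤ 1) {x₁ x₂ y₁ l : K} {c₁ c₂ d₁ m : F}
    (hl : Sees v φ l m) (h₁ : Sees v φ x₁ c₁) (h₂ : Sees v φ x₂ c₂) (hy : Sees v φ y₁ d₁)
    (ha₁ : V.a₁ = φ W.a₁) (ha₂ : V.a₂ = φ W.a₂) (ha₃ : V.a₃ = φ W.a₃) :
    Sees v φ (V.addY x₁ x₂ y₁ l) (W.addY c₁ c₂ d₁ m) := by
  have hX := Sees.addX hφ hl h₁ h₂ ha₁ ha₂
  rw [Affine.addY, Affine.addY, Affine.negY, Affine.negY, Affine.negAddY, Affine.negAddY, ha₁, ha₃]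
  exact (((hl.mul hφ (hX.sub h₁)).add hy).neg.sub ((Sees.const W.a₁).mul hφ hX)).sub
    (Sees.const W.a₃)

end Reduction

lemma transPlace_eq_add_of_ne {a b x y : F} (hS : W.Nonsingular a b) (hP : W.Nonsingular x y)
    (hne : x ≠ a) :
    transPlace (.some a b hS) (.some x y hP) = .some x y hP + .some a b hS := by
  classical
  set v := placeVal (W := W) (.some x y hP) with hv
  have hu : ∀ c : F, c ≠ 0 → v (cst W c) = 1 := fun c => placeVal_cst _
  have hle : ∀ c : F, v (cst W c) ≤ 1 := le_one_of_const v hu
  have hx : Sees v (cst W) (xgen W) x := placeVal_some_xgen hP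
  have hy : Sees v (cst W) (ygen W) y := placeVal_some_ygen hP
  have hgen0 : genPt W + constPt W (.some a b hS) = _ := Point.add_of_X_ne (xgen_ne_cst a)
  rw [genPt_add_constPt] at hgen0
  have hgen := Point.some.inj hgen0
  have hl : Sees v (cst W) ((W⁄W.FunctionField).slope (xgen W) (cst W a) (ygen W) (cst W b))
      (W.slope x a y b) := by
    rw [slope_of_X_ne (xgen_ne_cst a), slope_of_X_ne hne, div_eq_mul_inv, div_eq_mul_inv]
    exact (hy.sub (Sees.const b)).mul hle
      ((hx.sub (Sees.const a)).inv hu (sub_ne_zero.mpr hne))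
  have hX := hl.addX (V := (W⁄W.FunctionField)) hle hx (Sees.const a) rfl rfl
  have hY := hl.addY (V := (W⁄W.FunctionField)) hle hx (Sees.const a) hy rfl rfl rfl
  rw [Point.add_of_X_ne hne]
  obtain ⟨_, he⟩ := eq_some_of_lt_one (P := transPlace (.some a b hS) (.some x y hP))
    (x := W.addX x a (W.slope x a y b)) (y := W.addY x a y (W.slope x a y b))
    (by rw [placeVal_transPlace, map_sub, AlgHom.commutes, transHom_xgen, hgen.1]; exact hX)
    (by rw [placeVal_transPlace, map_sub, AlgHom.commutes, transHom_ygen, hgen.2]; exact hY)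
  exact he

omit [DecidableEq F] in
lemma infinite_point : Infinite W.Point := by
  have hex : ∀ x : F, ∃ (y : F), W.Nonsingular x y := fun x => by
    obtain ⟨y, hy⟩ := IsAlgClosed.exists_root
      (X ^ 2 + C (W.a₁ * x + W.a₃) * X + C (-(x ^ 3 + W.a₂ * x ^ 2 + W.a₄ * x + W.a₆))) (by
        rw [show (X ^ 2 + C (W.a₁ * x + W.a₃) * X +
          C (-(x ^ 3 + W.a₂ * x ^ 2 + W.a₄ * x + W.a₆)) : F[X]).degree = 2 by compute_degree!]
        decide)
    refine ⟨y, equation_iff_nonsingular.mp ((equation_iff x y).mpr ?_)⟩
    have hy' : y ^ 2 + (W.a₁ * x + W.a₃) * y + -(x ^ 3 + W.a₂ * x ^ 2 + W.a₄ * x + W.a₆) = 0 := by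
      simpa using hy
    linear_combination hy'
  exact Infinite.of_injective (fun x => (Point.some x _ (hex x).choose_spec : W.Point))
    fun x x' h => (Point.some.inj h).1

lemma transPlace_eq_add_of_not {S P : W.Point} (h0 : P ≠ 0) (h1 : P ≠ S) (h2 : P ≠ -S) :
    transPlace S P = P + S := by
  cases S with
  | zero =>
    apply placeVal_injective
    refine Valuation.ext fun f => ?_
    rw [← Point.zero_def, add_zero, placeVal_transPlace, transHom_zero_apply]
  | some a b hS =>
    cases P with
    | zero => exact (h0 rfl).elim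
    | some x y hP =>
      refine transPlace_eq_add_of_ne hS hP fun hxa => ?_
      rcases (Point.X_eq_iff (h₁ := hP) (h₂ := hS)).mp hxa with h | h
      exacts [h1 h, h2 h]

lemma transPlace_symm_add (S A B : W.Point) (hA : transPlace S A = A + S)
    (hB : transPlace S B = B + S) :
    (transPlace S).symm (A + B + S) + (transPlace S).symm S = A + B := by
  classical
  obtain ⟨f, hf, hd⟩ : Finsupp.single (A + S) (1 : ℤ) + Finsupp.single (B + S) 1 -
      Finsupp.single (A + B + S) 1 - Finsupp.single S 1 ∈ princ W := by
    refine (mem_princ_iff _).mpr ⟨by simp, ?_⟩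
    simp only [map_add, map_sub, sumD_single, one_zsmul]
    abel
  have h := ((mem_princ_iff _).mp ⟨_, transHom_ne_zero S hf, rfl⟩).2
  rw [divOf_transHom_eq, hd] at h
  simp only [← hA, ← hB, Finsupp.mapDomain_sub, Finsupp.mapDomain_add, Finsupp.mapDomain_single,
    Equiv.symm_apply_apply, map_add, map_sub, sumD_single, one_zsmul] at h
  rw [sub_sub, sub_eq_zero] at h
  rw [hA, hB] at *
  exact h.symm

theorem transPlace_apply (S P : W.Point) : transPlace S P = P + S := by
  classical
  have := infinite_point (W := W)
  have key : ∀ Q : W.Point, ∃ A : W.Point, transPlace S A = A + S ∧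
      transPlace S (Q - A) = Q - A + S := by
    intro Q
    obtain ⟨A, hA⟩ := Infinite.exists_notMem_finset
      ({0, S, -S, Q, Q - S, Q + S} : Finset W.Point)
    simp only [Finset.mem_insert, Finset.mem_singleton, not_or] at hA
    obtain ⟨h0, h1, h2, h3, h4, h5⟩ := hA
    refine ⟨A, transPlace_eq_add_of_not h0 h1 h2, transPlace_eq_add_of_not ?_ ?_ ?_⟩
    · intro h; exact h3 (sub_eq_zero.mp h).symm
    · intro h; exact h4 (by rw [← h]; abel)
    · intro h; exact h5 (by rw [← neg_neg S, ← h]; abel)
  have hbase : (transPlace S).symm S = 0 := by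
    obtain ⟨Q, hQ⟩ := Infinite.exists_notMem_finset ({0, S, -S} : Finset W.Point)
    simp only [Finset.mem_insert, Finset.mem_singleton, not_or] at hQ
    have hQ' := transPlace_eq_add_of_not hQ.1 hQ.2.1 hQ.2.2
    obtain ⟨A, hA, hB⟩ := key Q
    have h := transPlace_symm_add S A (Q - A) hA hB
    rw [add_sub_cancel, (Equiv.symm_apply_eq _).mpr hQ'.symm] at h
    simpa using h
  obtain ⟨A, hA, hB⟩ := key P
  have h := transPlace_symm_add S A (P - A) hA hB
  rw [add_sub_cancel, hbase, add_zero] at h
  exact ((Equiv.symm_apply_eq _).mp h).symm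

/-- Translation of functions translates divisors. -/
theorem ordAt_transHom (S P : W.Point) (f : W.FunctionField) :
    ordAt P (transHom S f) = ordAt (P + S) f := by
  rw [← ordAt_transPlace, transPlace_apply]

end Fermat.Agent.WeilPairing
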